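import Fermat.Agent.ZEC.Two
import Fermat.Agent.ERep.Trace
import Fermat.Agent.SEL.Val

/-!
# The line in the `2`-adic Tate module of a curve multiplicative at `2`
-/

set_option autoImplicit false

namespace Fermat.Agent.ZEC

open WeierstrassCurve WeierstrassCurve.Affine WeierstrassCurve.Affine.Point
open Fermat.Agent.EC Fermat.Agent.ERep Fermat.Agent.Tate Fermat.Agent.FrobE

local notation "Qb" => AlgebraicClosure ℚ
local notation "GQ" => AlgebraicClosure ℚ ≃ₐ[ℚ] AlgebraicClosure ℚ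

/-- equivariant isomorphism with the integral model -/
theorem exists_iso (E : WeierstrassCurve ℚ) {W : WeierstrassCurve ℤ} (hWE : W.IsIntegralModelOf E) :
    ∃ θ : ((W.map (Int.castRingHom ℚ))⁄Qb).Point ≃+ (E⁄Qb).Point,
      ∀ (σ : GQ) (P), σ • θ P = θ (σ • P) := by
  obtain ⟨C, hC⟩ := hWE
  rw [← hC]
  exact ⟨psi (M := Qb) E C, fun σ P => smul_psi E C σ P⟩

section Roots

variable {K : Type*} [Field K] [CharZero K] [IsAlgClosed K]

/-- the cubic of the `2`-torsion has three roots -/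
theorem exists_roots (b₂ b₄ b₆ : K) : ∃ e₁ e₂ e₃ : K,
    (4 * (e₁ + e₂ + e₃) = -b₂) ∧ (2 * (e₁ * e₂ + e₁ * e₃ + e₂ * e₃) = b₄) ∧
    (4 * (e₁ * e₂ * e₃) = -b₆) := by
  have h4 : (4 : K) ≠ 0 := by norm_num
  obtain ⟨e₁, he₁⟩ : ∃ e : K, 4 * e ^ 3 + b₂ * e ^ 2 + 2 * b₄ * e + b₆ = 0 := by
    let P : Polynomial K := Polynomial.C 4 * Polynomial.X ^ 3 + Polynomial.C b₂ * Polynomial.X ^ 2 +
      Polynomial.C (2 * b₄) * Polynomial.X + Polynomial.C b₆
    have hd : P.degree = 3 := Polynomial.degree_cubic h4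
    obtain ⟨e, he⟩ := IsAlgClosed.exists_root P (by rw [hd]; decide)
    refine ⟨e, ?_⟩
    have := he
    simp only [P, Polynomial.IsRoot.def, Polynomial.eval_add, Polynomial.eval_mul,
      Polynomial.eval_C, Polynomial.eval_pow, Polynomial.eval_X] at this
    exact this
  obtain ⟨e₂, he₂⟩ : ∃ e : K, 4 * e ^ 2 + (b₂ + 4 * e₁) * e + (2 * b₄ + e₁ * (b₂ + 4 * e₁)) = 0 := by
    let P : Polynomial K := Polynomial.C 4 * Polynomial.X ^ 2 +
      Polynomial.C (b₂ + 4 * e₁) * Polynomial.X + Polynomial.C (2 * b₄ + e₁ * (b₂ + 4 * e₁))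
    have hd : P.degree = 2 := Polynomial.degree_quadratic h4
    obtain ⟨e, he⟩ := IsAlgClosed.exists_root P (by rw [hd]; decide)
    refine ⟨e, ?_⟩
    have := he
    simp only [P, Polynomial.IsRoot.def, Polynomial.eval_add, Polynomial.eval_mul,
      Polynomial.eval_C, Polynomial.eval_pow, Polynomial.eval_X] at this
    exact this
  refine ⟨e₁, e₂, -(b₂ + 4 * e₁) / 4 - e₂, ?_, ?_, ?_⟩
  · field_simp; ring
  · field_simp
    linear_combination (-2) * he₂
  · field_simp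
    linear_combination (-e₁) * he₂ + he₁

end Roots

section Point

variable {K Γ₀ : Type*} [Field K] [CharZero K] [IsAlgClosed K] [DecidableEq K]
  [LinearOrderedCommGroupWithZero Γ₀] {v : Valuation K Γ₀} {W : Affine K}

/-- There is a `2`-torsion point not in the kernel of reduction. -/
theorem exists_two_notE1 (hW : IsInt v W) (h2 : v (2 : K) < 1) (hΔ : W.Δ ≠ 0) (hc : v W.c₄ = 1) :
    ∃ P : W.Point, 2 • P = 0 ∧ ¬ InE1 v (xX (W := W)) xZ P := by
  obtain ⟨e₁, e₂, e₃, h1, h22, h3⟩ := exists_roots W.b₂ W.b₄ W.b₆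
  have hb2 : v W.b₂ = 1 := by
    have h4 : v (W.b₂ ^ 2) = 1 := by
      have : W.b₂ ^ 2 = W.c₄ + 2 * (((12 : ℕ) : K) * W.b₄) := by
        rw [c₄]; push_cast; ring
      rw [this, v.map_add_eq_of_lt_left, hc]
      rw [hc]
      exact mul_lt h2 (im (mul_mem (natCast_mem_integer v 12) (mi hW.b₄)))
    rw [map_pow] at h4
    exact (pow_eq_one_iff_of_nonneg zero_le two_ne_zero).mp h4
  have hroot : ∀ e : K, (e = e₁ ∨ e = e₂ ∨ e = e₃) →
      4 * e ^ 3 + W.b₂ * e ^ 2 + 2 * W.b₄ * e + W.b₆ = 0 := by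
    intro e he
    have h : 4 * e ^ 3 + W.b₂ * e ^ 2 + 2 * W.b₄ * e + W.b₆ =
        4 * ((e - e₁) * (e - e₂) * (e - e₃)) := by
      linear_combination (e ^ 2) * h1 - (2 * e) * h22 + h3
    rw [h]
    rcases he with rfl | rfl | rfl <;> ring
  have hbig : ∀ e : K, (e = e₁ ∨ e = e₂ ∨ e = e₃) → 1 < v e → v (4 * e) = 1 := by
    intro e he h1e
    have h5 := hroot e he
    have h0 : v e ≠ 0 := (zero_lt_one.trans h1e).ne'
    have h6 : v (4 * e * e ^ 2) = v (e ^ 2) := by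
      have e1 : 4 * e * e ^ 2 = -(W.b₂ * e ^ 2 + (2 * W.b₄ * e + W.b₆)) := by
        linear_combination h5
      have e2 : v (W.b₂ * e ^ 2) = v (e ^ 2) := by rw [map_mul, hb2, one_mul]
      have e3 : v (2 * W.b₄ * e + W.b₆) < v (e ^ 2) := by
        have hlt : v e < v (e ^ 2) := by
          rw [map_pow, sq]
          calc v e = 1 * v e := (one_mul _).symm
            _ < v e * v e := mul_lt_mul_of_pos_right h1e (zero_lt_one.trans h1e)
        refine (v.map_add _ _).trans_lt (max_lt ?_ ?_)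
        · rw [map_mul]
          refine (mul_le_of_le_one_left' ?_).trans_lt hlt
          exact im (mul_mem (natCast_mem_integer v 2) (mi hW.b₄))
        · exact (hW.b₆.trans_lt h1e).trans hlt
      rw [e1, Valuation.map_neg, v.map_add_eq_of_lt_left (by rw [e2]; exact e3), e2]
    rw [map_mul] at h6
    exact mul_right_cancel₀ (by rw [map_pow]; exact pow_ne_zero 2 h0) (h6.trans (one_mul _).symm)
  obtain ⟨e, he, hle⟩ : ∃ e : K, (e = e₁ ∨ e = e₂ ∨ e = e₃) ∧ v e ≤ 1 := by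
    by_contra hcon
    push Not at hcon
    have k1 := hbig e₁ (by tauto) (hcon e₁ (by tauto))
    have k2 := hbig e₂ (by tauto) (hcon e₂ (by tauto))
    have k3 := hbig e₃ (by tauto) (hcon e₃ (by tauto))
    have k4 : v ((4 * e₁) * (4 * e₂) * (4 * e₃)) = 1 := by
      rw [map_mul, map_mul, k1, k2, k3, one_mul, one_mul]
    have k5 : (4 * e₁) * (4 * e₂) * (4 * e₃) = 2 * (-(((8 : ℕ) : K) * W.b₆)) := by
      push_cast
      linear_combination 16 * h3
    rw [k5] at k4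
    have k6 : v (2 * (-(((8 : ℕ) : K) * W.b₆))) < 1 :=
      mul_lt h2 (im (neg_mem (mul_mem (natCast_mem_integer v 8) (mi hW.b₆))))
    rw [k4] at k6
    exact lt_irrefl _ k6
  have h2' : (2 : K) ≠ 0 := two_ne_zero
  set y : K := -(W.a₁ * e + W.a₃) / 2 with hy
  have hy2 : 2 * y + W.a₁ * e + W.a₃ = 0 := by rw [hy]; field_simp; ring
  have heq : W.Equation e y := by
    rw [equation_iff]
    have h5 := hroot e he
    have h4 : (4 : K) ≠ 0 := by norm_num
    apply mul_left_cancel₀ h4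
    rw [b₂, b₄, b₆] at h5
    linear_combination (2 * y + W.a₁ * e + W.a₃) * hy2 - h5
  have hns : W.Nonsingular e y := (equation_iff_nonsingular_of_Δ_ne_zero hΔ).mp heq
  refine ⟨.some e y hns, ?_, ?_⟩
  · rw [two_nsmul]
    refine add_self_of_Y_eq ?_
    rw [negY]
    linear_combination hy2
  · unfold InE1
    rw [xX_some, xZ_some, _root_.map_one, not_lt]
    exact hle

end Point

section KerRed

variable {K Γ₀ : Type*} [Field K] [DecidableEq K]
  [LinearOrderedCommGroupWithZero Γ₀] {v : Valuation K Γ₀} {W : Affine K}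

/-- the kernel of reduction as a subgroup -/
def kerRed (hW : IsInt v W) : AddSubgroup W.Point where
  carrier := {P | InE1 v (xX (W := W)) xZ P}
  add_mem' := fun hP hQ => inE1_add hW hP hQ
  zero_mem' := inE1_zero
  neg_mem' := fun {P} (hP : InE1 v (xX (W := W)) xZ P) =>
    (inE1_neg hP : InE1 v (xX (W := W)) xZ (-P))

end KerRed

section Bad

variable (E : WeierstrassCurve ℚ) [E.IsElliptic] {W : WeierstrassCurve ℤ}
  (hWE : W.IsIntegralModelOf E) {A : ValuationSubring Qb} (hA : A.LiesOverPrime 2)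
  (hΔ : (2 : ℤ) ∣ W.Δ) (hc : ¬ (2 : ℤ) ∣ W.c₄)

include hWE hA hΔ hc

/-- the kernel of reduction at `A ∣ 2` and the sign character -/
theorem exists_ker : ∃ (B : AddSubgroup (E⁄Qb).Point) (z : GQ → ℤ),
    (∀ s ∈ A.decompositionSubgroup ℚ, z s = 1 ∨ z s = -1) ∧
    (∀ s ∈ A.inertiaSubgroupIn ℚ, z s = 1) ∧
    (∀ s ∈ A.decompositionSubgroup ℚ, ∀ t ∈ A.decompositionSubgroup ℚ, z (s * t) = z s * z t) ∧
    (∀ s ∈ A.decompositionSubgroup ℚ, ∀ P ∈ B, s • P ∈ B) ∧
    (∀ s ∈ A.decompositionSubgroup ℚ, ∀ (Q : (E⁄Qb).Point) (m : ℕ), 2 ^ m • Q = 0 →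
      s • (2 • Q) - z s • (2 • Q) ∈ B) ∧
    ∃ P : (E⁄Qb).Point, 2 • P = 0 ∧ P ∉ B := by
  classical
  have hvq : A.valuation ((2 : ℕ) : Qb) < 1 := A.mem_nonunits_iff.mp hA
  have h2 : A.valuation (2 : Qb) < 1 := by exact_mod_cast hvq
  have hΔ0 : W.Δ ≠ 0 := Δ_ne_zero E hWE
  obtain ⟨θ, hθ⟩ := exists_iso E hWE
  have hInt := isInt_model (A := A) (L := Qb) W
  have hΔv : A.valuation ((W.map (Int.castRingHom ℚ))⁄Qb).Δ < 1 := by
    rw [Δ_model]; exact val_int_lt_one (q := 2) hvq (by exact_mod_cast hΔ)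
  have hcv : A.valuation ((W.map (Int.castRingHom ℚ))⁄Qb).c₄ = 1 := by
    rw [c₄_model]; exact val_int_eq_one Nat.prime_two hvq (by exact_mod_cast hc)
  obtain ⟨x₀, y₀, α, β, h⟩ := exists_crit (v := A.valuation) hInt hΔv hcv
  have hαβ : α ≠ β := by
    rintro rfl
    have := h.unit
    rw [sub_self, _root_.map_zero] at this
    exact zero_ne_one this
  let B₀ : AddSubgroup ((W.map (Int.castRingHom ℚ))⁄Qb).Point := kerRed hInt
  have hB₀ : ∀ P, P ∈ B₀ ↔ InE1 A.valuation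
    (xX (W := ((W.map (Int.castRingHom ℚ))⁄Qb).toAffine)) xZ P := fun _ => Iff.rfl
  have hdec : ∀ s ∈ A.decompositionSubgroup ℚ, ∀ x, A.valuation (s x) = A.valuation x :=
    fun s hs x => valuation_decomp_eq A hs x
  let z : GQ → ℤ := fun s => if s α = α then 1 else -1
  have hz : ∀ s ∈ A.decompositionSubgroup ℚ,
      (s α = α ∧ s β = β ∧ z s = 1) ∨ (s α = β ∧ s β = α ∧ z s = -1) := by
    intro s hs
    obtain ⟨-, -, h3 | h3⟩ := crit_decomp h h2 (hdec s hs)
    · exact Or.inl ⟨h3.1, h3.2, if_pos h3.1⟩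
    · refine Or.inr ⟨h3.1, h3.2, if_neg ?_⟩
      rw [h3.1]
      exact hαβ.symm
  have memB : ∀ P, P ∈ B₀.map (θ : _ →+ (E⁄Qb).Point) ↔ θ.symm P ∈ B₀ := by
    intro P
    constructor
    · rintro ⟨Q, hQ, rfl⟩
      change θ.symm (θ Q) ∈ B₀
      rw [AddEquiv.symm_apply_apply]
      exact hQ
    · intro hP
      exact ⟨θ.symm P, hP, θ.apply_symm_apply P⟩
  refine ⟨B₀.map (θ : _ →+ (E⁄Qb).Point), z, ?_, ?_, ?_, ?_, ?_, ?_⟩
  · intro s hs
    rcases hz s hs with h1 | h1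
    · exact Or.inl h1.2.2
    · exact Or.inr h1.2.2
  · intro s hs
    have := (h.fixed (R := ℚ) (S := ℚ) (trivMod_of_mem_inertia A hs)).2.2.1
    exact if_pos this
  · intro s hs t ht
    rcases hz s hs with h1 | h1 <;> rcases hz t ht with h2 | h2 <;>
      rcases hz (s * t) (mul_mem hs ht) with h3 | h3
    · rw [h1.2.2, h2.2.2, h3.2.2]; rfl
    · exfalso
      apply hαβ
      rw [← h3.1, AlgEquiv.mul_apply, h2.1, h1.1]
    · exfalso
      apply hαβ
      have := h3.1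
      rw [AlgEquiv.mul_apply, h2.1, h1.2.1] at this
      exact this.symm
    · rw [h1.2.2, h2.2.2, h3.2.2]; rfl
    · exfalso
      apply hαβ
      have := h3.1
      rw [AlgEquiv.mul_apply, h2.1, h1.1] at this
      exact this.symm
    · rw [h1.2.2, h2.2.2, h3.2.2]; rfl
    · rw [h1.2.2, h2.2.2, h3.2.2]; rfl
    · exfalso
      apply hαβ
      have := h3.1
      rw [AlgEquiv.mul_apply, h2.1, h1.2.1] at this
      exact this
  · rintro s hs _ ⟨P, hP, rfl⟩
    refine ⟨s • P, inE1_smul (hdec s hs) hP, ?_⟩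
    exact (hθ s P).symm
  · intro s hs Q m hQ
    obtain ⟨Q', rfl⟩ := θ.surjective Q
    have hQ' : 2 ^ m • Q' = 0 := by
      apply θ.injective
      rw [map_nsmul, hQ, _root_.map_zero]
    have e : s • (2 • θ Q') - z s • (2 • θ Q') = θ (s • (2 • Q') - z s • (2 • Q')) := by
      rw [map_sub, map_zsmul, ← hθ, map_nsmul]
    rw [e, memB, AddEquiv.symm_apply_apply, hB₀]
    have hc := crit_decomp h h2 (hdec s hs)
    rcases hz s hs with h1 | h1
    · rw [h1.2.2, one_zsmul]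
      exact smul_sub_inE1_two h h2 (hdec s hs) hc.1 hc.2.1 h1.1 h1.2.1 hQ'
    · rw [h1.2.2, neg_one_zsmul, sub_neg_eq_add]
      exact smul_add_inE1_two h h2 (hdec s hs) hc.1 hc.2.1 h1.1 h1.2.1 hQ'
  · obtain ⟨P, hP, hP'⟩ := exists_two_notE1 hInt h2 (by
      rw [Δ_model]; exact_mod_cast hΔ0) hcv
    refine ⟨θ P, ?_, ?_⟩
    · rw [← map_nsmul, hP, _root_.map_zero]
    · rw [memB, AddEquiv.symm_apply_apply]
      exact hP'

end Bad

end Fermat.Agent.ZEC
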