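import Fermat.Agent.ZEC.RB

/-!
# Ramification and surjectivity of the residual representation at `2`
-/

set_option autoImplicit false

namespace Fermat.Agent.ZEC

open WeierstrassCurve WeierstrassCurve.Affine WeierstrassCurve.Affine.Point
open Fermat.Agent.EC Fermat.Agent.ERep Fermat.Agent.Tate Fermat.Agent.FrobE

local notation "Qb" => AlgebraicClosure ℚ
local notation "GQ" => AlgebraicClosure ℚ ≃ₐ[ℚ] AlgebraicClosure ℚ

section

variable (E : WeierstrassCurve ℚ) [E.IsElliptic] {W : WeierstrassCurve ℤ}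
  (hWE : W.IsIntegralModelOf E)

include hWE

/-- sign character = action on the square root of the discriminant -/
theorem rbE_sign {d : Qb} (hd : d ^ 2 = ((W.Δ : ℤ) : Qb)) (s : GQ) :
    ((rbE E s) ^ 3 = 1 ∧ s d = d) ∨ ((rbE E s) ^ 3 ≠ 1 ∧ (rbE E s) ^ 2 = 1 ∧ s d = -d) := by
  obtain ⟨C, hC⟩ := hWE
  obtain ⟨d₀, hd₀, h⟩ := exists_sqrt E
  have h1 : ((W.Δ : ℤ) : ℚ) = (C.u⁻¹ : ℚˣ) ^ 12 * E.Δ := by
    have h2 : (W.map (Int.castRingHom ℚ)).Δ = ((W.Δ : ℤ) : ℚ) := by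
      rw [WeierstrassCurve.map_Δ]; rfl
    rw [← h2, ← hC, variableChange_Δ]
  set c : Qb := algebraMap ℚ Qb (((C.u⁻¹ : ℚˣ) : ℚ) ^ 6) with hc
  have h3 : (E⁄Qb).Δ = algebraMap ℚ Qb E.Δ := WeierstrassCurve.map_Δ _ _
  have h4 : d ^ 2 = (c * d₀) ^ 2 := by
    rw [hd, mul_pow, hd₀, h3, hc, ← map_pow, ← map_mul, ← pow_mul, ← h1]
    exact (map_intCast (algebraMap ℚ Qb) _).symm
  have h5 : d = c * d₀ ∨ d = -(c * d₀) := sq_eq_sq_iff_eq_or_eq_neg.mp h4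
  have h6 : s c = c := s.commutes _
  rcases h s with ⟨a, b⟩ | ⟨a, a', b⟩
  · left
    refine ⟨a, ?_⟩
    rcases h5 with h5 | h5 <;> rw [h5]
    · rw [map_mul, h6, b]
    · rw [map_neg, map_mul, h6, b]
  · right
    refine ⟨a, a', ?_⟩
    rcases h5 with h5 | h5 <;> rw [h5]
    · rw [map_mul, h6, b]; ring
    · rw [map_neg, map_mul, h6, b]; ring

omit hWE in
/-- the valuation of an integer -/
theorem val_int {l : ℕ} (hl : l.Prime) {A : ValuationSubring Qb} (hA : A.LiesOverPrime l) {n : ℤ}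
    (hn : n ≠ 0) : A.valuation (n : Qb) = A.valuation (l : Qb) ^ (padicValInt l n) := by
  have : Fact l.Prime := ⟨hl⟩
  have hvq : A.valuation (l : Qb) < 1 := A.mem_nonunits_iff.mp hA
  obtain ⟨m, hm⟩ : ((l : ℤ) ^ (padicValInt l n)) ∣ n := padicValInt_dvd n
  have hnd : ¬ (l : ℤ) ∣ m := by
    rintro ⟨k, rfl⟩
    have h1 : (l : ℤ) ^ (padicValInt l n + 1) ∣ n := ⟨k, by rw [pow_succ, mul_assoc]; exact hm⟩
    have h2 := (padicValInt_dvd_iff (p := l) (padicValInt l n + 1) n).mp h1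
    rcases h2 with h2 | h2
    · exact hn h2
    · omega
  have hm1 : A.valuation (m : Qb) = 1 := val_int_eq_one hl hvq hnd
  have e : (n : Qb) = (l : Qb) ^ (padicValInt l n) * (m : Qb) := by
    exact_mod_cast congrArg (Int.cast : ℤ → Qb) hm
  rw [e, map_mul, map_pow, hm1, mul_one]

/-- inertia moves the `2`-torsion at primes dividing the discriminant an odd number of times -/
theorem exists_inertia_rbE {l : ℕ} (hl : l.Prime) {A : ValuationSubring Qb}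
    (hA : A.LiesOverPrime l) (hodd : Odd (padicValInt l W.Δ)) :
    ∃ s ∈ A.inertiaSubgroupIn ℚ, (rbE E s) ^ 3 ≠ 1 ∧ (rbE E s) ^ 2 = 1 ∧ rbE E s ≠ 1 := by
  have hvq : A.valuation (l : Qb) < 1 := A.mem_nonunits_iff.mp hA
  have hΔ0 : W.Δ ≠ 0 := Δ_ne_zero E hWE
  obtain ⟨d, hd⟩ := IsAlgClosed.exists_pow_nat_eq ((W.Δ : ℤ) : Qb) (n := 2) two_pos
  have hd0 : d ≠ 0 := by
    rintro rfl
    rw [zero_pow two_ne_zero] at hd
    exact hΔ0 (by exact_mod_cast hd.symm)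
  by_contra hcon
  push Not at hcon
  have hfix : ∀ s ∈ A.inertiaSubgroupIn ℚ, s d = d := by
    intro s hs
    rcases rbE_sign E hWE hd s with ⟨-, h⟩ | ⟨h3, h2, -⟩
    · exact h
    · have h1 := hcon s hs h3 h2
      rw [h1, one_pow] at h3
      exact absurd rfl h3
  obtain ⟨n, hn⟩ := SEL.exists_valuation_zpow_of_inertia A hl hA hd0 hfix
  have h1 : A.valuation (l : Qb) ^ (2 * n) = A.valuation (l : Qb) ^ ((padicValInt l W.Δ : ℕ) : ℤ) := by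
    rw [zpow_natCast, ← val_int hl hA hΔ0, ← hd, map_pow, hn, mul_comm, zpow_mul]
    rfl
  have h0 : A.valuation (l : Qb) ≠ 0 := by
    rw [Valuation.ne_zero_iff]
    exact_mod_cast hl.ne_zero
  have h2 := zpow_ne_self h0 hvq h1
  obtain ⟨k, hk⟩ := hodd
  rw [hk] at h2
  push_cast at h2
  omega

/-- complex conjugation moves the `2`-torsion if the discriminant is negative -/
theorem rbE_conj (hΔ : W.Δ < 0) {c : GQ} {ι : Qb →+* ℂ}
    (hc : ∀ x, ι (c x) = (starRingEnd ℂ) (ι x)) :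
    (rbE E c) ^ 3 ≠ 1 ∧ (rbE E c) ^ 2 = 1 ∧ rbE E c ≠ 1 := by
  obtain ⟨d, hd⟩ := IsAlgClosed.exists_pow_nat_eq ((W.Δ : ℤ) : Qb) (n := 2) two_pos
  rcases rbE_sign E hWE hd c with ⟨-, h⟩ | ⟨h3, h2, -⟩
  · exfalso
    have h1 := hc d
    rw [h] at h1
    obtain ⟨r, hr⟩ := Complex.conj_eq_iff_real.mp h1.symm
    have h2 : (r : ℂ) ^ 2 = ((W.Δ : ℤ) : ℂ) := by
      rw [← hr, ← map_pow, hd, map_intCast]
    have h3 : r ^ 2 = ((W.Δ : ℤ) : ℝ) := by exact_mod_cast h2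
    have h4 : ((W.Δ : ℤ) : ℝ) < 0 := by exact_mod_cast hΔ
    rw [← h3] at h4
    exact absurd (sq_nonneg r) (not_le.mpr h4)
  · exact ⟨h3, h2, fun h => by rw [h, one_pow] at h3; exact h3 rfl⟩

omit [E.IsElliptic] in
/-- rational roots of the cubic of `E` give rational roots of the cubic of the model -/
theorem root_model (hnr : ∀ x : ℚ, 4 * x ^ 3 + (W.b₂ : ℚ) * x ^ 2 + 2 * (W.b₄ : ℚ) * x +
    (W.b₆ : ℚ) ≠ 0) (x : ℚ) : 4 * x ^ 3 + E.b₂ * x ^ 2 + 2 * E.b₄ * x + E.b₆ ≠ 0 := by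
  obtain ⟨C, hC⟩ := hWE
  intro hx
  have h2 : ((W.b₂ : ℤ) : ℚ) = (C.u⁻¹ : ℚˣ) ^ 2 * (E.b₂ + 12 * C.r) := by
    have : (W.map (Int.castRingHom ℚ)).b₂ = ((W.b₂ : ℤ) : ℚ) := by
      rw [WeierstrassCurve.map_b₂]; rfl
    rw [← this, ← hC, variableChange_b₂]
  have h4 : ((W.b₄ : ℤ) : ℚ) = (C.u⁻¹ : ℚˣ) ^ 4 * (E.b₄ + C.r * E.b₂ + 6 * C.r ^ 2) := by
    have : (W.map (Int.castRingHom ℚ)).b₄ = ((W.b₄ : ℤ) : ℚ) := by
      rw [WeierstrassCurve.map_b₄]; rfl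
    rw [← this, ← hC, variableChange_b₄]
  have h6 : ((W.b₆ : ℤ) : ℚ) = (C.u⁻¹ : ℚˣ) ^ 6 *
      (E.b₆ + 2 * C.r * E.b₄ + C.r ^ 2 * E.b₂ + 4 * C.r ^ 3) := by
    have : (W.map (Int.castRingHom ℚ)).b₆ = ((W.b₆ : ℤ) : ℚ) := by
      rw [WeierstrassCurve.map_b₆]; rfl
    rw [← this, ← hC, variableChange_b₆]
  apply hnr (((C.u⁻¹ : ℚˣ) : ℚ) ^ 2 * (x - C.r))
  rw [h2, h4, h6]
  linear_combination (((C.u⁻¹ : ℚˣ) : ℚ) ^ 6) * hx

/-- surjectivity -/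
theorem rbE_surjective (hnr : ∀ x : ℚ, 4 * x ^ 3 + (W.b₂ : ℚ) * x ^ 2 + 2 * (W.b₄ : ℚ) * x +
    (W.b₆ : ℚ) ≠ 0) (hsq : ¬ IsSquare ((W.Δ : ℤ) : ℚ)) {M : Matrix (Fin 2) (Fin 2) (ZMod 2)}
    (hM : M.det ≠ 0) : ∃ s, rbE E s = M := by
  obtain ⟨d, hd⟩ := IsAlgClosed.exists_pow_nat_eq ((W.Δ : ℤ) : Qb) (n := 2) two_pos
  obtain ⟨s₂, hs₂⟩ : ∃ s : GQ, s d ≠ d := by
    by_contra hcon
    push Not at hcon
    have h1 := (InfiniteGalois.mem_range_algebraMap_iff_fixed (k := ℚ) (K := Qb) d).mpr hcon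
    obtain ⟨r, rfl⟩ := h1
    apply hsq
    refine ⟨r, ?_⟩
    apply (algebraMap ℚ Qb).injective
    rw [← pow_two, map_pow, hd, map_intCast]
  have hs₂' : (rbE E s₂) ^ 3 ≠ 1 ∧ (rbE E s₂) ^ 2 = 1 := by
    rcases rbE_sign E hWE hd s₂ with ⟨-, h⟩ | ⟨h3, h2, -⟩
    · exact absurd h hs₂
    · exact ⟨h3, h2⟩
  obtain ⟨s₃, hs₃, hs₃'⟩ : ∃ s, (rbE E s) ^ 3 = 1 ∧ rbE E s ≠ 1 := by
    by_contra hcon
    push Not at hcon
    obtain ⟨e, -, hroot, hs⟩ := exists_e E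
    obtain ⟨t, ht0, ht⟩ : ∃ t : Fin 2 → ZMod 2, t ≠ 0 ∧ (rbE E s₂).mulVec t = t := by
      rcases six (rbE E s₂) (rbE_det_ne E s₂) with ⟨h, -⟩ | ⟨-, -, ⟨h, -⟩ | ⟨-, -, h⟩ | ⟨-, h, -⟩⟩
      · exact absurd h hs₂'.1
      · exact ⟨_, t₁_ne, h⟩
      · exact ⟨_, t₃_ne, h⟩
      · exact ⟨_, t₂_ne, h⟩
    have hfix : ∀ s : GQ, s (e t) = e t := by
      intro s
      rw [hs, common (rbE E s₂) (rbE E s) hs₂'.2 hs₂'.1 (rbE_det_ne E s) (hcon s)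
        (fun h => by rw [← map_mul] at h ⊢; exact hcon _ h) t ht]
    obtain ⟨r, hr⟩ := (InfiniteGalois.mem_range_algebraMap_iff_fixed (k := ℚ) (K := Qb) _).mpr hfix
    have h1 := hroot t ht0
    rw [← hr] at h1
    apply root_model E hWE hnr r
    apply (algebraMap ℚ Qb).injective
    have e2 : (E⁄Qb).b₂ = algebraMap ℚ Qb E.b₂ := WeierstrassCurve.map_b₂ _ _
    have e4 : (E⁄Qb).b₄ = algebraMap ℚ Qb E.b₄ := WeierstrassCurve.map_b₄ _ _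
    have e6 : (E⁄Qb).b₆ = algebraMap ℚ Qb E.b₆ := WeierstrassCurve.map_b₆ _ _
    rw [e2, e4, e6] at h1
    simp only [map_add, map_mul, map_pow, map_ofNat, _root_.map_zero]
    exact h1
  obtain ⟨i, j, hij⟩ := word _ _ M hs₃ hs₃' hs₂'.2 hs₂'.1 hM
  refine ⟨s₃ ^ (i : ℕ) * s₂ ^ (j : ℕ), ?_⟩
  rw [map_mul, map_pow, map_pow, hij]

omit hWE [E.IsElliptic] in
/-- An integer all of whose valuations are odd is `±` its radical times a square. -/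
theorem exists_sq_mul {n : ℤ} (hn : n < 0)
    (hodd : ∀ l : ℕ, l.Prime → (l : ℤ) ∣ n → Odd (padicValInt l n)) :
    ∃ m : ℤ, n = -((∏ p ∈ n.natAbs.primeFactors, p : ℕ) : ℤ) * m ^ 2 := by
  have hn0 : n.natAbs ≠ 0 := Int.natAbs_ne_zero.mpr hn.ne
  refine ⟨((∏ p ∈ n.natAbs.primeFactors, p ^ ((n.natAbs.factorization p) / 2) : ℕ) : ℤ), ?_⟩
  have h1 : n.natAbs = (∏ p ∈ n.natAbs.primeFactors, p) *
      (∏ p ∈ n.natAbs.primeFactors, p ^ ((n.natAbs.factorization p) / 2)) ^ 2 := by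
    conv_lhs => rw [← Nat.prod_factorization_pow_eq_self hn0]
    rw [Finsupp.prod, Nat.support_factorization, ← Finset.prod_pow, ← Finset.prod_mul_distrib]
    refine Finset.prod_congr rfl fun p hp => ?_
    rw [Nat.mem_primeFactors] at hp
    have h2 := hodd p hp.1 (Int.natCast_dvd.mpr hp.2.1)
    have h3 : padicValInt p n = n.natAbs.factorization p := by
      rw [padicValInt, Nat.factorization_def _ hp.1]
    rw [h3] at h2
    obtain ⟨k, hk⟩ := h2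
    rw [hk, ← pow_mul]
    have : (2 * k + 1) / 2 = k := by omega
    rw [this, pow_succ, mul_comm k 2, mul_comm]
  have h4 : n = -(n.natAbs : ℤ) := by omega
  rw [h4, neg_mul, Int.natAbs_neg, Int.natAbs_natCast]
  congr 1
  exact_mod_cast h1

/-- The elements acting with odd order are those fixing `√(-N)`. -/
theorem rbE_cube_iff (hΔ : W.Δ < 0)
    (hodd : ∀ l : ℕ, l.Prime → (l : ℤ) ∣ W.Δ → Odd (padicValInt l W.Δ)) {δ : Qb}
    (hδ : δ ^ 2 = -((∏ p ∈ W.Δ.natAbs.primeFactors, p : ℕ) : Qb)) (s : GQ) :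
    (s δ = δ ↔ (rbE E s) ^ 3 = 1) ∧ (s δ = δ ∨ s δ = -δ) := by
  obtain ⟨m, hm⟩ := exists_sq_mul hΔ hodd
  have hm0 : (m : Qb) ≠ 0 := by
    intro h
    have h1 : m = 0 := by exact_mod_cast h
    rw [h1] at hm
    rw [hm] at hΔ
    norm_num at hΔ
  have hδ0 : δ ≠ 0 := by
    rintro rfl
    rw [zero_pow two_ne_zero, zero_eq_neg] at hδ
    have h1 : (∏ p ∈ W.Δ.natAbs.primeFactors, p : ℕ) = 0 := by exact_mod_cast hδ
    rw [Finset.prod_eq_zero_iff] at h1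
    obtain ⟨p, hp, hp0⟩ := h1
    exact (Nat.prime_of_mem_primeFactors hp).ne_zero hp0
  have hd : (δ * (m : Qb)) ^ 2 = ((W.Δ : ℤ) : Qb) := by
    conv_rhs => rw [hm]
    rw [mul_pow, hδ]
    push_cast
    ring
  have hsm : s (m : Qb) = (m : Qb) := map_intCast s m
  have hne : δ ≠ -δ := by
    intro h
    apply hδ0
    have h2 : (2 : Qb) * δ = 0 := by linear_combination h
    exact (mul_eq_zero.mp h2).resolve_left two_ne_zero
  rcases rbE_sign E hWE hd s with ⟨h3, h⟩ | ⟨h3, h2, h⟩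
  · rw [map_mul, hsm] at h
    have h4 : s δ = δ := mul_right_cancel₀ hm0 h
    exact ⟨⟨fun _ => h3, fun _ => h4⟩, Or.inl h4⟩
  · rw [map_mul, hsm, ← neg_mul] at h
    have h4 : s δ = -δ := mul_right_cancel₀ hm0 h
    refine ⟨⟨fun h5 => absurd (h5.symm.trans h4) hne, fun h5 => absurd h5 h3⟩, Or.inr h4⟩

end

end Fermat.Agent.ZEC
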