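import Fermat.Agent.ZEC.Line

/-!
# The line in the `2`-adic Tate module of a curve multiplicative at `2`
-/

set_option autoImplicit false

namespace Fermat.Agent.ZEC

open WeierstrassCurve WeierstrassCurve.Affine WeierstrassCurve.Affine.Point
open Fermat.Agent.EC Fermat.Agent.ERep Fermat.Agent.Tate Fermat.Agent.FrobE

local notation "Qb" => AlgebraicClosure ℚ
local notation "GQ" => AlgebraicClosure ℚ ≃ₐ[ℚ] AlgebraicClosure ℚ

theorem zpow_ne_self {Γ₀ : Type*} [LinearOrderedCommGroupWithZero Γ₀] {g : Γ₀} (h0 : g ≠ 0)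
    (h1 : g < 1) {n m : ℤ} (h : g ^ n = g ^ m) : n = m := by
  have hinj : StrictAnti (fun k : ℤ => g ^ k) := zpow_right_strictAnti₀ (zero_lt_iff.mpr h0) h1
  exact hinj.injective h

/-- Inertia at `2` moves `ζ₄`. -/
theorem exists_inertia_cyc {A : ValuationSubring Qb} (hA : A.LiesOverPrime 2) :
    ∃ s ∈ A.inertiaSubgroupIn ℚ, cycE 2 s ≠ 1 := by
  have hvq : A.valuation ((2 : ℕ) : Qb) < 1 := A.mem_nonunits_iff.mp hA
  obtain ⟨i, hi⟩ := IsAlgClosed.exists_pow_nat_eq (-1 : Qb) (n := 2) two_pos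
  have hne : (1 + i) ≠ 0 := by
    intro h
    have : i = -1 := by linear_combination h
    rw [this] at hi
    norm_num at hi
  have hv2 : A.valuation (1 + i) ^ 2 = A.valuation ((2 : ℕ) : Qb) := by
    have hi1 : A.valuation i = 1 := by
      have h1 : A.valuation i ^ 2 = 1 := by
        rw [← map_pow, hi, Valuation.map_neg, _root_.map_one]
      exact (pow_eq_one_iff_of_nonneg zero_le two_ne_zero).mp h1
    have e : (1 + i) ^ 2 = ((2 : ℕ) : Qb) * i := by
      push_cast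
      linear_combination hi
    rw [← map_pow, e, map_mul, hi1, mul_one]
  by_contra hcon
  push Not at hcon
  have hfix : ∀ s ∈ A.inertiaSubgroupIn ℚ, s i = i := by
    intro s hs
    by_contra hsi
    have h1 : s i ^ 2 = -1 := by rw [← map_pow, hi, map_neg, _root_.map_one]
    have h2 : s i = -i := by
      have : (s i - i) * (s i + i) = 0 := by linear_combination h1 - hi
      rcases mul_eq_zero.mp this with h | h
      · exact absurd (sub_eq_zero.mp h) hsi
      · linear_combination h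
    have h3 : cycE 2 s - ((3 : ℕ) : ℤ_[2]) ∈ (IsLocalRing.maximalIdeal ℤ_[2]) ^ 2 := by
      refine Fermat.Agent.QuadRep.cyc_sub_mem (p_mem 2) 2 3 s ?_
      intro μ hμ
      have h4 : (μ - 1) * (μ + 1) * (μ - i) * (μ + i) = 0 := by
        linear_combination hμ - (μ ^ 2 - 1) * hi
      rcases mul_eq_zero.mp h4 with h4 | h4
      · rcases mul_eq_zero.mp h4 with h4 | h4
        · rcases mul_eq_zero.mp h4 with h4 | h4
          · rw [sub_eq_zero.mp h4]; simp
          · rw [eq_neg_of_add_eq_zero_left h4]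
            rw [map_neg, _root_.map_one]; norm_num
        · rw [sub_eq_zero.mp h4, h2]
          linear_combination (-i) * hi
      · rw [eq_neg_of_add_eq_zero_left h4, map_neg, h2]
        linear_combination i * hi
    rw [hcon s hs, PadicInt.maximalIdeal_eq_span_p, Ideal.span_singleton_pow,
      Ideal.mem_span_singleton] at h3
    obtain ⟨c, hc⟩ := h3
    have h5 : ((2 : ℕ) : ℤ_[2]) * (1 + ((2 : ℕ) : ℤ_[2]) * c) = 0 := by
      push_cast at hc ⊢
      linear_combination (-1) * hc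
    rcases mul_eq_zero.mp h5 with h5 | h5
    · exact (PadicInt.prime_p (p := 2)).ne_zero h5
    · apply (PadicInt.prime_p (p := 2)).not_dvd_one
      exact ⟨-c, by linear_combination h5⟩
  obtain ⟨n, hn⟩ := SEL.exists_valuation_zpow_of_inertia A Nat.prime_two hA hne (by
    intro s hs
    rw [map_add, _root_.map_one, hfix s hs])
  have h0 : A.valuation ((2 : ℕ) : Qb) ≠ 0 := by
    rw [Valuation.ne_zero_iff]
    norm_num
  rw [hn, ← zpow_natCast, ← zpow_mul] at hv2
  nth_rewrite 2 [← zpow_one (A.valuation ((2 : ℕ) : Qb))] at hv2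
  have := zpow_ne_self h0 hvq hv2
  omega

section Bad

variable (E : WeierstrassCurve ℚ) [E.IsElliptic] {W : WeierstrassCurve ℤ}
  (hWE : W.IsIntegralModelOf E) {A : ValuationSubring Qb} (hA : A.LiesOverPrime 2)
  (hΔ : (2 : ℤ) ∣ W.Δ) (hc : ¬ (2 : ℤ) ∣ W.c₄)

include hWE hA hΔ hc

/-- The submodule version. -/
theorem exists_sub (hns : NonScalar E 2) :
    ∃ (L : Submodule ℤ_[2] (Fin 2 → ℤ_[2])) (z : GQ → ℤ),
      (∀ x, (2 : ℤ_[2]) • x ∈ L → x ∈ L) ∧ L ≠ ⊥ ∧ L ≠ ⊤ ∧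
      (∀ s ∈ A.decompositionSubgroup ℚ, z s = 1 ∨ z s = -1) ∧
      (∀ s ∈ A.inertiaSubgroupIn ℚ, z s = 1) ∧
      (∀ s ∈ A.decompositionSubgroup ℚ, ∀ t ∈ A.decompositionSubgroup ℚ,
        z (s * t) = z s * z t) ∧
      (∀ s ∈ A.decompositionSubgroup ℚ, ∀ x ∈ L, repE E 2 s x ∈ L) ∧
      (∀ s ∈ A.decompositionSubgroup ℚ, ∀ x, repE E 2 s x - (z s : ℤ_[2]) • x ∈ L) := by
  obtain ⟨B, z, hz1, hz2, hz3, hB1, hB2, P, hP2, hPB⟩ := exists_ker E hWE hA hΔ hc
  let L : Submodule ℤ_[2] (Fin 2 → ℤ_[2]) :=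
    { carrier := {x | ∀ n, ((tb E 2).pr n x : (E⁄Qb).Point) ∈ B}
      add_mem' := fun {a b} ha hb n => by
        rw [map_add, AddSubgroup.coe_add]
        exact B.add_mem (ha n) (hb n)
      zero_mem' := fun n => by
        rw [_root_.map_zero]
        exact B.zero_mem
      smul_mem' := fun c x hx n => by
        rw [TBasis.pr_smul, AddSubgroup.coe_nsmul]
        exact B.nsmul_mem (hx n) _ }
  have hL : ∀ x, x ∈ L ↔ ∀ n, ((tb E 2).pr n x : (E⁄Qb).Point) ∈ B := fun _ => Iff.rfl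
  have key : ∀ s ∈ A.decompositionSubgroup ℚ, ∀ x, repE E 2 s x - (z s : ℤ_[2]) • x ∈ L := by
    intro s hs x n
    have h1 := hB2 s hs ((tb E 2).pr (n + 1) x) (n + 1)
      ((mem_tor 2).mp ((tb E 2).pr (n + 1) x).2)
    rw [TBasis.p_smul_pr] at h1
    rw [map_sub, AddSubgroup.coe_sub, pr_repE, Int.cast_smul_eq_zsmul, map_zsmul,
      AddSubgroup.coe_zsmul]
    exact h1
  refine ⟨L, z, ?_, ?_, ?_, hz1, hz2, hz3, ?_, key⟩
  · intro x hx n
    have h1 := hx (n + 1)
    have h2 : (tb E 2).pr (n + 1) ((2 : ℤ_[2]) • x) = 2 • (tb E 2).pr (n + 1) x := by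
      rw [two_smul, map_add, two_nsmul]
    rw [h2, AddSubgroup.coe_nsmul, TBasis.p_smul_pr] at h1
    exact h1
  · obtain ⟨s, hs, hcyc⟩ := exists_inertia_cyc hA
    intro hbot
    apply hcyc
    rw [← det_eq_cyc E 2 hWE hns]
    have hsD : s ∈ A.decompositionSubgroup ℚ := by
      obtain ⟨τ, -, rfl⟩ := hs
      exact τ.2
    have h1 : repE E 2 s = 1 := by
      refine LinearMap.ext fun x => ?_
      have h2 := key s hsD x
      rw [hbot, Submodule.mem_bot, hz2 s hs, Int.cast_one, one_smul] at h2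
      exact sub_eq_zero.mp h2
    rw [h1, _root_.map_one]
  · intro htop
    obtain ⟨x, hx⟩ := (tb E 2).pr_surjective 1 ⟨P, (mem_tor 2).mpr (by rw [pow_one]; exact hP2)⟩
    have h1 : x ∈ L := by rw [htop]; trivial
    have h2 := h1 1
    rw [hx] at h2
    exact hPB h2
  · intro s hs x hx n
    rw [pr_repE]
    exact hB1 s hs _ (hx n)

end Bad

section Alg

theorem exists_primitive {x : Fin 2 → ℤ_[2]} (hx : x ≠ 0) :
    ∃ (m : ℕ) (y : Fin 2 → ℤ_[2]), x = (2 : ℤ_[2]) ^ m • y ∧ ∃ i, IsUnit (y i) := by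
  classical
  have h2 : Prime (2 : ℤ_[2]) := by exact_mod_cast PadicInt.prime_p (p := 2)
  obtain ⟨j, hj⟩ : ∃ j, x j ≠ 0 := by
    by_contra hcon
    push Not at hcon
    exact hx (funext hcon)
  have hex : ∃ n : ℕ, ¬ ∀ i, (2 : ℤ_[2]) ^ n ∣ x i := by
    have := FiniteMultiplicity.of_prime_left h2 hj
    obtain ⟨n, hn⟩ := this
    exact ⟨n + 1, fun h => hn (h j)⟩
  obtain ⟨m, hm⟩ : ∃ m, Nat.find hex = m + 1 := by
    refine Nat.exists_eq_succ_of_ne_zero fun h => ?_
    have := Nat.find_spec hex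
    rw [h] at this
    exact this fun i => by rw [pow_zero]; exact one_dvd _
  have h1 : ∀ i, (2 : ℤ_[2]) ^ m ∣ x i := by
    by_contra hcon
    exact Nat.find_min hex (by omega) hcon
  choose y hy using h1
  refine ⟨m, y, funext hy, ?_⟩
  by_contra hcon
  push Not at hcon
  have h3 := Nat.find_spec hex
  rw [hm] at h3
  apply h3
  intro i
  have h4 : (2 : ℤ_[2]) ∣ y i := by
    have h5 : y i ∈ IsLocalRing.maximalIdeal ℤ_[2] := hcon i
    rw [PadicInt.maximalIdeal_eq_span_p, Ideal.mem_span_singleton] at h5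
    exact_mod_cast h5
  rw [pow_succ, hy i]
  exact mul_dvd_mul_left _ h4

/-- the determinant form -/
noncomputable def dform (e : Fin 2 → ℤ_[2]) : (Fin 2 → ℤ_[2]) →ₗ[ℤ_[2]] ℤ_[2] where
  toFun x := e 0 * x 1 - e 1 * x 0
  map_add' x y := by simp only [Pi.add_apply]; ring
  map_smul' a x := by simp only [Pi.smul_apply, smul_eq_mul, RingHom.id_apply]; ring

theorem dform_apply (e x : Fin 2 → ℤ_[2]) : dform e x = e 0 * x 1 - e 1 * x 0 := rfl

theorem dform_self (e : Fin 2 → ℤ_[2]) : dform e e = 0 := by rw [dform_apply]; ring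

theorem dform_surjective {e : Fin 2 → ℤ_[2]} (he : ∃ i, IsUnit (e i)) :
    Function.Surjective (dform e) := by
  intro c
  obtain ⟨i, u, hu⟩ := he
  have hinv : (u : ℤ_[2]) * (↑u⁻¹ : ℤ_[2]) = 1 := Units.mul_inv u
  fin_cases i
  · refine ⟨![0, (↑u⁻¹ : ℤ_[2]) * c], ?_⟩
    rw [dform_apply]
    have hu' : (u : ℤ_[2]) = e 0 := hu
    rw [← hu']
    simp only [Matrix.cons_val_zero, Matrix.cons_val_one]
    linear_combination c * hinv
  · refine ⟨![-((↑u⁻¹ : ℤ_[2]) * c), 0], ?_⟩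
    rw [dform_apply]
    have hu' : (u : ℤ_[2]) = e 1 := hu
    rw [← hu']
    simp only [Matrix.cons_val_zero, Matrix.cons_val_one]
    linear_combination c * hinv

theorem dform_eq_zero_iff {e : Fin 2 → ℤ_[2]} (he : ∃ i, IsUnit (e i)) (x : Fin 2 → ℤ_[2]) :
    dform e x = 0 ↔ ∃ a : ℤ_[2], x = a • e := by
  constructor
  · intro h
    rw [dform_apply] at h
    obtain ⟨i, u, hu⟩ := he
    have hinv : (u : ℤ_[2]) * (↑u⁻¹ : ℤ_[2]) = 1 := Units.mul_inv u
    fin_cases i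
    · have hu' : (u : ℤ_[2]) = e 0 := hu
      rw [← hu'] at h
      refine ⟨(↑u⁻¹ : ℤ_[2]) * x 0, funext fun j => ?_⟩
      fin_cases j
      · show x 0 = (↑u⁻¹ : ℤ_[2]) * x 0 * e 0
        rw [← hu']
        linear_combination (-x 0) * hinv
      · show x 1 = (↑u⁻¹ : ℤ_[2]) * x 0 * e 1
        linear_combination (↑u⁻¹ : ℤ_[2]) * h - x 1 * hinv
    · have hu' : (u : ℤ_[2]) = e 1 := hu
      rw [← hu'] at h
      refine ⟨(↑u⁻¹ : ℤ_[2]) * x 1, funext fun j => ?_⟩
      fin_cases j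
      · show x 0 = (↑u⁻¹ : ℤ_[2]) * x 1 * e 0
        linear_combination (-(↑u⁻¹ : ℤ_[2])) * h - x 0 * hinv
      · show x 1 = (↑u⁻¹ : ℤ_[2]) * x 1 * e 1
        rw [← hu']
        linear_combination (-x 1) * hinv
  · rintro ⟨a, rfl⟩
    rw [map_smul, dform_self, smul_zero]

/-- A saturated submodule of `ℤ₂²` different from `0` and everything is generated by a primitive
vector. -/
theorem exists_gen {L : Submodule ℤ_[2] (Fin 2 → ℤ_[2])} (hsat : ∀ x, (2 : ℤ_[2]) • x ∈ L → x ∈ L)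
    (hbot : L ≠ ⊥) (htop : L ≠ ⊤) :
    ∃ e : Fin 2 → ℤ_[2], (∃ i, IsUnit (e i)) ∧ ∀ x, x ∈ L ↔ dform e x = 0 := by
  have hsat' : ∀ (m : ℕ) (x), (2 : ℤ_[2]) ^ m • x ∈ L → x ∈ L := by
    intro m
    induction m with
    | zero => intro x hx; rwa [pow_zero, one_smul] at hx
    | succ m ih =>
      intro x hx
      rw [pow_succ, mul_smul] at hx
      exact hsat x (ih _ hx)
  obtain ⟨x, hxL, hx0⟩ := (Submodule.ne_bot_iff L).mp hbot
  obtain ⟨m, e, hxe, he⟩ := exists_primitive hx0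
  have heL : e ∈ L := hsat' m e (by rw [← hxe]; exact hxL)
  refine ⟨e, he, fun x => ⟨fun hx => ?_, fun hx => ?_⟩⟩
  · by_contra hne
    apply htop
    rw [Submodule.eq_top_iff']
    intro y
    have h1 : dform e x • y ∈ L := by
      have h2 : dform e x • y = dform e y • x + (y 0 * x 1 - y 1 * x 0) • e := by
        funext j
        fin_cases j
        · show dform e x * y 0 = dform e y * x 0 + (y 0 * x 1 - y 1 * x 0) * e 0
          rw [dform_apply, dform_apply]; ring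
        · show dform e x * y 1 = dform e y * x 1 + (y 0 * x 1 - y 1 * x 0) * e 1
          rw [dform_apply, dform_apply]; ring
      rw [h2]
      exact L.add_mem (L.smul_mem _ hx) (L.smul_mem _ heL)
    have h3 := PadicInt.unitCoeff_spec hne
    rw [h3, mul_comm, mul_smul] at h1
    have h4 : ((PadicInt.unitCoeff hne : ℤ_[2]ˣ) : ℤ_[2]) • y ∈ L :=
      hsat' (dform e x).valuation _ (by exact_mod_cast h1)
    have h5 := L.smul_mem (↑(PadicInt.unitCoeff hne)⁻¹ : ℤ_[2]) h4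
    rwa [← mul_smul, Units.inv_mul, one_smul] at h5
  · obtain ⟨a, rfl⟩ := (dform_eq_zero_iff he x).mp hx
    exact L.smul_mem a heL

end Alg

section Final

variable (E : WeierstrassCurve ℚ) [E.IsElliptic] {W : WeierstrassCurve ℤ}
  (hWE : W.IsIntegralModelOf E) {A : ValuationSubring Qb} (hA : A.LiesOverPrime 2)
  (hΔ : (2 : ℤ) ∣ W.Δ) (hc : ¬ (2 : ℤ) ∣ W.c₄)

include hWE hA hΔ hc

/-- **Local structure at `2`** of the `2`-adic Tate module of a curve multiplicative at `2`. -/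
theorem exists_line (hns : NonScalar E 2) :
    ∃ (e : Fin 2 → ℤ_[2]) (φ : (Fin 2 → ℤ_[2]) →ₗ[ℤ_[2]] ℤ_[2]) (z : GQ → ℤ),
      (∃ i, IsUnit (e i)) ∧ Function.Surjective φ ∧
      (∀ x, φ x = 0 ↔ ∃ a : ℤ_[2], x = a • e) ∧
      (∀ s ∈ A.decompositionSubgroup ℚ, z s = 1 ∨ z s = -1) ∧
      (∀ s ∈ A.inertiaSubgroupIn ℚ, z s = 1) ∧
      (∀ s ∈ A.decompositionSubgroup ℚ, ∀ t ∈ A.decompositionSubgroup ℚ,
        z (s * t) = z s * z t) ∧
      (∀ s ∈ A.decompositionSubgroup ℚ, ∀ x, φ (repE E 2 s x) = (z s : ℤ_[2]) * φ x) ∧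
      (∀ s ∈ A.decompositionSubgroup ℚ, repE E 2 s e = ((z s : ℤ_[2]) * cycE 2 s) • e) := by
  obtain ⟨L, z, hsat, hbot, htop, hz1, hz2, hz3, hL1, hL2⟩ := exists_sub E hWE hA hΔ hc hns
  obtain ⟨e, he, hLe⟩ := exists_gen hsat hbot htop
  have hφ : ∀ s ∈ A.decompositionSubgroup ℚ, ∀ x,
      dform e (repE E 2 s x) = (z s : ℤ_[2]) * dform e x := by
    intro s hs x
    have h1 := (hLe _).mp (hL2 s hs x)
    rw [map_sub, map_smul, smul_eq_mul] at h1
    exact sub_eq_zero.mp h1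
  refine ⟨e, dform e, z, he, dform_surjective he, dform_eq_zero_iff he, hz1, hz2, hz3, hφ, ?_⟩
  intro s hs
  have heL : e ∈ L := (hLe e).mpr (dform_self e)
  obtain ⟨a, ha⟩ := (dform_eq_zero_iff he _).mp ((hLe _).mp (hL1 s hs e heL))
  obtain ⟨f, hf⟩ := dform_surjective he 1
  have hdet := det_eq_cyc E 2 hWE hns s
  -- the quadratic relation applied to `e`
  have h3 := hφ s hs f
  rw [hf, mul_one] at h3
  -- determinant of the matrix in the basis `e, f`
  have h4 : ∀ u : Module.End ℤ_[2] (Fin 2 → ℤ_[2]),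
      LinearMap.det u * (e 0 * f 1 - e 1 * f 0) = (u e) 0 * (u f) 1 - (u e) 1 * (u f) 0 := by
    intro u
    rw [← LinearMap.det_toMatrix', Matrix.det_fin_two]
    have hu : ∀ x : Fin 2 → ℤ_[2], u x = (LinearMap.toMatrix' u).mulVec x := fun x =>
      (LinearMap.toMatrix'_mulVec u x).symm
    rw [hu e, hu f]
    simp only [Matrix.mulVec, dotProduct, Fin.sum_univ_two]
    ring
  have h5 := h4 (repE E 2 s)
  rw [hdet, ← dform_apply, hf, mul_one, ha] at h5
  have h6 : cycE 2 s = a * (z s : ℤ_[2]) := by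
    rw [dform_apply] at h3
    rw [h5]
    simp only [Pi.smul_apply, smul_eq_mul]
    linear_combination a * h3
  have h7 : (z s : ℤ_[2]) * (z s : ℤ_[2]) = 1 := by
    rcases hz1 s hs with h | h <;> rw [h] <;> norm_num
  rw [ha]
  congr 1
  linear_combination (-(z s : ℤ_[2])) * h6 - a * h7

end Final

end Fermat.Agent.ZEC
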