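import Fermat.Agent.ERep.CritExists
import Fermat.Agent.ERep.Local

/-!
# Multiplicative reduction in residue characteristic `2`

`E₁` is the kernel of reduction; points with nonsingular reduction and `2`-power order are in `E₁`.
If `σ` is in the decomposition group then `σ P - z(σ) P ∈ E₁` for all `2`-power torsion points `P`.
-/

set_option autoImplicit false

namespace Fermat.Agent.ZEC

open WeierstrassCurve WeierstrassCurve.Affine WeierstrassCurve.Affine.Point
open Fermat.Agent.EC Fermat.Agent.ERep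

open scoped Pointwise in
/-- Elements of the decomposition group preserve the valuation (algebraic extensions). -/
theorem valuation_decomp_eq {k L : Type*} [Field k] [Field L] [Algebra k L]
    [Algebra.IsAlgebraic k L]
    (A : ValuationSubring L) {s : L ≃ₐ[k] L} (hσ : s ∈ A.decompositionSubgroup k) (x : L) :
    A.valuation (s x) = A.valuation x := by
  have hmem : (s • A : ValuationSubring L) = A := hσ
  have hA : ∀ y, s y ∈ A ↔ y ∈ A := by
    intro y
    constructor
    · intro h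
      have : s • y ∈ s • A := by rw [hmem]; exact h
      exact (ValuationSubring.smul_mem_pointwise_smul_iff).mp this
    · intro h
      have : s • y ∈ s • A := (ValuationSubring.smul_mem_pointwise_smul_iff).mpr h
      rw [hmem] at this
      exact this
  have hle : ∀ y z, A.valuation (s y) ≤ A.valuation (s z) ↔ A.valuation y ≤ A.valuation z := by
    intro y z
    by_cases hz : z = 0
    · subst hz
      simp
    · have hz' : s z ≠ 0 := by simpa using hz
      have p1 : 0 < A.valuation z :=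
        lt_of_le_of_ne zero_le (Ne.symm (A.valuation.ne_zero_iff.mpr hz))
      have p2 : 0 < A.valuation (s z) :=
        lt_of_le_of_ne zero_le (Ne.symm (A.valuation.ne_zero_iff.mpr hz'))
      rw [← div_le_one₀ p1, ← div_le_one₀ p2, ← map_div₀, ← map_div₀, ← map_div₀,
        A.valuation_le_one_iff, A.valuation_le_one_iff]
      exact hA _
  -- the orbit of `x` is finite
  obtain ⟨n, hn, hx⟩ : ∃ n : ℕ, 0 < n ∧ (s ^ n) x = x := by
    have hfin : ((minpoly k x).rootSet L).Finite := (minpoly k x).rootSet_finite L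
    have hmaps : ∀ n : ℕ, (s ^ n) x ∈ (minpoly k x).rootSet L := by
      intro n
      rw [Polynomial.mem_rootSet]
      refine ⟨minpoly.ne_zero (Algebra.IsIntegral.isIntegral x), ?_⟩
      have := Polynomial.aeval_algHom_apply ((s ^ n : L ≃ₐ[k] L) : L →ₐ[k] L) x (minpoly k x)
      rw [minpoly.aeval, _root_.map_zero] at this
      exact this
    obtain ⟨i, -, j, -, hij, hijx⟩ := Set.infinite_univ.exists_ne_map_eq_of_mapsTo
      (s := Set.univ) (t := (minpoly k x).rootSet L) (f := fun n : ℕ => (s ^ n) x)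
      (fun n _ => hmaps n) hfin
    have haux : ∀ i j : ℕ, i < j → (s ^ i) x = (s ^ j) x → ∃ n : ℕ, 0 < n ∧ (s ^ n) x = x := by
      intro i j hlt h
      refine ⟨j - i, by omega, ?_⟩
      have : j = i + (j - i) := by omega
      rw [this, pow_add] at h
      exact ((s ^ i).injective h).symm
    rcases lt_or_gt_of_ne hij with hlt | hlt
    · exact haux i j hlt hijx
    · exact haux j i hlt hijx.symm
  rcases lt_trichotomy (A.valuation (s x)) (A.valuation x) with hlt | heq | hlt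
  · exfalso
    have h1 : ∀ m : ℕ, 0 < m → A.valuation ((s ^ m) x) < A.valuation x := by
      intro m hm
      induction m with
      | zero => omega
      | succ m ih =>
        rcases Nat.eq_zero_or_pos m with rfl | hm'
        · simpa using hlt
        · have h2 := ih hm'
          have h3 : A.valuation (s ((s ^ m) x)) < A.valuation (s x) := by
            rw [← not_le, hle, not_le]; exact h2
          rw [pow_succ']
          exact h3.trans hlt
    have := h1 n hn
    rw [hx] at this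
    exact lt_irrefl _ this
  · exact heq
  · exfalso
    have h1 : ∀ m : ℕ, 0 < m → A.valuation x < A.valuation ((s ^ m) x) := by
      intro m hm
      induction m with
      | zero => omega
      | succ m ih =>
        rcases Nat.eq_zero_or_pos m with rfl | hm'
        · simpa using hlt
        · have h2 := ih hm'
          have h3 : A.valuation (s x) < A.valuation (s ((s ^ m) x)) := by
            rw [← not_le, hle, not_le]; exact h2
          rw [pow_succ']
          exact hlt.trans h3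
    have := h1 n hn
    rw [hx] at this
    exact lt_irrefl _ this

section Crit

variable {K Γ₀ : Type*} [Field K] [LinearOrderedCommGroupWithZero Γ₀]
  {v : Valuation K Γ₀} {W : Affine K} {x₀ y₀ α β : K}

/-- In residue characteristic `2` the tangent line at a point not reducing to the node has unit
denominator. -/
theorem crit_unit_D (h : Crit v W x₀ y₀ α β) (h2 : v (2 : K) < 1) {x y : K}
    (e : W.Equation x y) (hx : v x ≤ 1) (hnd : ¬ (v (x - x₀) < 1 ∧ v (y - y₀) < 1)) :
    v (2 * y + W.a₁ * x + W.a₃) = 1 := by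
  have hy : v y ≤ 1 := h.isInt.y_le_one e hx
  obtain ⟨hu, hw⟩ := h.uw_int hx hy
  have hD := h.D_eq x y
  have hE := h.eqn e
  set u := (y - y₀) - α * (x - x₀) with hu'
  set w := (y - y₀) - β * (x - x₀) with hw'
  have hDle : v (2 * y + W.a₁ * x + W.a₃) ≤ 1 := by
    rw [hD]; exact im (add_mem (mi hu) (mi hw))
  by_contra hne
  have hlt : v (2 * y + W.a₁ * x + W.a₃) < 1 := lt_of_le_of_ne hDle hne
  rw [hD] at hlt
  have hX : v (x - x₀) < 1 := by
    have e1 : (β - α) * (x - x₀) = (u + w) - 2 * w := by rw [hu', hw']; ring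
    have e2 : v ((β - α) * (x - x₀)) < 1 := by
      rw [e1]; exact sub_lt hlt (mul_lt h2 hw)
    rwa [map_mul, h.unit, one_mul] at e2
  have hprod : v (u * w) < 1 := by
    rw [hE]
    refine sub_lt ?_ h.F₀_lt
    rw [map_pow]
    exact pow_lt_one₀ zero_le hX (by norm_num)
  have hult : v u < 1 := by
    by_contra hcon
    rw [not_lt] at hcon
    have h1 : v u = 1 := le_antisymm hu hcon
    rw [map_mul, h1, one_mul] at hprod
    have : v (u + w) = 1 := by
      rw [v.map_add_eq_of_lt_left (by rw [h1]; exact hprod), h1]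
    rw [this] at hlt
    exact lt_irrefl _ hlt
  apply hnd
  refine ⟨hX, ?_⟩
  have : y - y₀ = u + α * (x - x₀) := by rw [hu']; ring
  rw [this]
  exact add_lt hult (mul_lt' h.α_le hX)

variable [DecidableEq K]

/-- In residue characteristic `2`, doubling preserves `E₀ \ E₁`. -/
theorem crit_two_notE1 (h : Crit v W x₀ y₀ α β) (h2 : v (2 : K) < 1) {P : W.Point}
    (hP : ¬ Nd v x₀ y₀ P) (hP1 : ¬ InE1 v (xX (W := W)) xZ P) :
    ¬ InE1 v (xX (W := W)) xZ (P + P) := by
  rcases P with _ | ⟨x, y, n⟩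
  · exfalso
    apply hP1
    change v (0 : K) < v (1 : K)
    rw [_root_.map_zero, _root_.map_one]
    exact zero_lt_one
  have hx : v x ≤ 1 := by
    by_contra hcon
    rw [not_le] at hcon
    apply hP1
    simpa [InE1] using hcon
  have hyi : v y ≤ 1 := h.isInt.y_le_one n.1 hx
  have hu := crit_unit_D h h2 n.1 hx hP
  have hDe : y - W.negY x y = 2 * y + W.a₁ * x + W.a₃ := by rw [negY]; ring
  have hy : y ≠ W.negY x y := by
    intro hcon
    rw [← hDe, sub_eq_zero.mpr hcon, _root_.map_zero] at hu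
    exact zero_ne_one hu
  rw [add_self_of_Y_ne hy]
  intro hcon
  have h4 : 1 < v (W.addX x x (W.slope x x y y)) := by simpa [InE1] using hcon
  rw [addX, slope_of_Y_ne rfl hy] at h4
  have hD0 : y - W.negY x y ≠ 0 := sub_ne_zero.mpr hy
  set l := (3 * x ^ 2 + 2 * W.a₂ * x + W.a₄ - W.a₁ * y) / (y - W.negY x y) with hl
  have hl1 : v l ≤ 1 := by
    rw [hl, map_div₀, hDe, hu, div_one]
    have := sub_mem (add_mem (add_mem (mul_mem (natCast_mem_integer v 3) (pow_mem (mi hx) 2))
      (mul_mem (mul_mem (natCast_mem_integer v 2) (mi h.isInt.a₂)) (mi hx))) (mi h.isInt.a₄))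
      (mul_mem (mi h.isInt.a₁) (mi hyi))
    exact im this
  have h5 : v (l ^ 2 + W.a₁ * l - W.a₂ - x - x) ≤ 1 := by
    have := sub_mem (sub_mem (sub_mem (add_mem (pow_mem (mi hl1) 2)
      (mul_mem (mi h.isInt.a₁) (mi hl1))) (mi h.isInt.a₂)) (mi hx)) (mi hx)
    exact im this
  exact absurd h4 (not_lt.mpr h5)

/-- In residue characteristic `2`, `E₀[2^∞] = E₁[2^∞]`. -/
theorem crit_inE1_of_torsion (h : Crit v W x₀ y₀ α β) (h2 : v (2 : K) < 1) {P : W.Point}
    (hP : ¬ Nd v x₀ y₀ P) {n : ℕ} (hn : 2 ^ n • P = 0) : InE1 v (xX (W := W)) xZ P := by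
  induction n generalizing P with
  | zero =>
    rw [pow_zero, one_nsmul] at hn
    rw [hn]
    change v (0 : K) < v (1 : K)
    rw [_root_.map_zero, _root_.map_one]
    exact zero_lt_one
  | succ n ih =>
    by_contra hcon
    refine crit_two_notE1 h h2 hP hcon (ih (h.not_nd_two' hP) ?_)
    rw [← two_nsmul, ← mul_smul, ← pow_succ]
    exact hn

end Crit

section Sigma

variable {K Γ₀ : Type*} [Field K] [DecidableEq K] [LinearOrderedCommGroupWithZero Γ₀]
  {v : Valuation K Γ₀} {W : Affine K} {x₀ y₀ α β : K}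

omit [DecidableEq K] in
lemma inE1_zero : InE1 v (xX (W := W)) xZ (0 : W.Point) := by
  change v (0 : K) < v (1 : K)
  rw [_root_.map_zero, _root_.map_one]
  exact zero_lt_one

lemma inE1_add (hW : IsInt v W) {P Q : W.Point} (hP : InE1 v (xX (W := W)) xZ P)
    (hQ : InE1 v (xX (W := W)) xZ Q) : InE1 v (xX (W := W)) xZ (P + Q) :=
  ((isKummer W).inE1_add_sub v hW.b₂ hW.b₄ hW.b₆ hW.b₈ hP hQ).1

lemma inE1_sub (hW : IsInt v W) {P Q : W.Point} (hP : InE1 v (xX (W := W)) xZ P)
    (hQ : InE1 v (xX (W := W)) xZ Q) : InE1 v (xX (W := W)) xZ (P - Q) :=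
  ((isKummer W).inE1_add_sub v hW.b₂ hW.b₄ hW.b₆ hW.b₈ hP hQ).2

omit [DecidableEq K] in
lemma inE1_neg {P : W.Point} (hP : InE1 v (xX (W := W)) xZ P) :
    InE1 v (xX (W := W)) xZ (-P) := by
  unfold InE1 at hP ⊢
  rwa [xX_neg, xZ_neg]

lemma inE1_nsmul (hW : IsInt v W) {P : W.Point} (hP : InE1 v (xX (W := W)) xZ P) (n : ℕ) :
    InE1 v (xX (W := W)) xZ (n • P) := by
  induction n with
  | zero => rw [zero_nsmul]; exact inE1_zero
  | succ n ih => rw [succ_nsmul]; exact inE1_add hW ih hP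

end Sigma

section Galois

variable {R S K Γ₀ : Type*} [CommRing R] [CommRing S] [Field K] [DecidableEq K]
  [LinearOrderedCommGroupWithZero Γ₀] [Algebra R S] [Algebra R K] [Algebra S K]
  [IsScalarTower R S K] {v : Valuation K Γ₀} {W' : Affine R} {x₀ y₀ α β : K}

/-- `σ P - P` does not reduce to the node, branches fixed. -/
theorem not_nd_fix (h : Crit v (W'⁄K) x₀ y₀ α β) {σ : K ≃ₐ[S] K}
    (hσv : ∀ x, v (σ x) = v x) (hx₀ : σ x₀ = x₀) (hy₀ : σ y₀ = y₀)
    (hα : σ α = α) (hβ : σ β = β) {x y : K} (n : (W'⁄K).toAffine.Nonsingular x y)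
    (hnd : Nd v x₀ y₀ (.some x y n : (W'⁄K).Point))
    (hne : v ((y - y₀) - α * (x - x₀)) ≠ v ((y - y₀) - β * (x - x₀))) :
    ¬ Nd v x₀ y₀ (σ • (.some x y n : (W'⁄K).Point) - .some x y n) := by
  have hσP : σ • (.some x y n : (W'⁄K).Point) = .some (σ x) (σ y)
    ((W'.baseChange_nonsingular (f := σ.toAlgHom) σ.toAlgHom.injective ..).mpr n) := rfl
  rw [hσP]
  have eX : σ x - x₀ = σ (x - x₀) := by rw [map_sub, hx₀]
  have eu : (σ y - y₀) - α * (σ x - x₀) = σ ((y - y₀) - α * (x - x₀)) := by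
    rw [map_sub σ (y - y₀), map_mul, map_sub σ y, map_sub σ x, hx₀, hy₀, hα]
  have ew : (σ y - y₀) - β * (σ x - x₀) = σ ((y - y₀) - β * (x - x₀)) := by
    rw [map_sub σ (y - y₀), map_mul, map_sub σ y, map_sub σ x, hx₀, hy₀, hβ]
  exact h.not_nd_sub n _ hnd.1 (by rw [eX, hσv]; exact hnd.1) (by rw [eu, hσv])
    (by rw [ew, hσv]) hne

/-- `σ P + P` does not reduce to the node, branches exchanged. -/
theorem not_nd_swap (h : Crit v (W'⁄K) x₀ y₀ α β) {σ : K ≃ₐ[S] K}
    (hσv : ∀ x, v (σ x) = v x) (hx₀ : σ x₀ = x₀) (hy₀ : σ y₀ = y₀)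
    (hα : σ α = β) (hβ : σ β = α) {x y : K} (n : (W'⁄K).toAffine.Nonsingular x y)
    (hnd : Nd v x₀ y₀ (.some x y n : (W'⁄K).Point))
    (hne : v ((y - y₀) - α * (x - x₀)) ≠ v ((y - y₀) - β * (x - x₀))) :
    ¬ Nd v x₀ y₀ (σ • (.some x y n : (W'⁄K).Point) + .some x y n) := by
  have hσP : σ • (.some x y n : (W'⁄K).Point) = .some (σ x) (σ y)
    ((W'.baseChange_nonsingular (f := σ.toAlgHom) σ.toAlgHom.injective ..).mpr n) := rfl
  have hneg : (.some x y n : (W'⁄K).Point) = -(.some x ((W'⁄K).toAffine.negY x y)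
      ((nonsingular_neg x y).mpr n) : (W'⁄K).Point) := by
    rw [← neg_some n, neg_neg]
  have e0 : σ • (.some x y n : (W'⁄K).Point) + .some x y n =
      (.some (σ x) (σ y)
    ((W'.baseChange_nonsingular (f := σ.toAlgHom) σ.toAlgHom.injective ..).mpr n) :
      (W'⁄K).Point) - (.some x ((W'⁄K).toAffine.negY x y)
      ((nonsingular_neg x y).mpr n) : (W'⁄K).Point) := by
    rw [hσP, sub_eq_add_neg, ← hneg]
  rw [e0]
  have eX : σ x - x₀ = σ (x - x₀) := by rw [map_sub, hx₀]
  have e1 : ((W'⁄K).toAffine.negY x y - y₀) - α * (x - x₀) =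
      -((y - y₀) - β * (x - x₀)) := by
    rw [negY]
    linear_combination (-1) * h.dy - (x - x₀) * h.sum
  have e2 : ((W'⁄K).toAffine.negY x y - y₀) - β * (x - x₀) =
      -((y - y₀) - α * (x - x₀)) := by
    rw [negY]
    linear_combination (-1) * h.dy - (x - x₀) * h.sum
  have eu : (σ y - y₀) - α * (σ x - x₀) = σ ((y - y₀) - β * (x - x₀)) := by
    rw [map_sub σ (y - y₀), map_mul, map_sub σ y, map_sub σ x, hx₀, hy₀, hβ]
  have ew : (σ y - y₀) - β * (σ x - x₀) = σ ((y - y₀) - α * (x - x₀)) := by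
    rw [map_sub σ (y - y₀), map_mul, map_sub σ y, map_sub σ x, hx₀, hy₀, hα]
  refine h.not_nd_sub _ _ hnd.1 (by rw [eX, hσv]; exact hnd.1) ?_ ?_ ?_
  · rw [eu, hσv, e1, Valuation.map_neg]
  · rw [ew, hσv, e2, Valuation.map_neg]
  · rw [e1, e2, Valuation.map_neg, Valuation.map_neg]
    exact hne.symm

lemma inE1_smul {σ : K ≃ₐ[S] K} (hσv : ∀ x, v (σ x) = v x) {P : (W'⁄K).Point}
    (hP : InE1 v (xX (W := W'⁄K)) xZ P) : InE1 v (xX (W := W'⁄K)) xZ (σ • P) := by
  rcases P with _ | ⟨x, y, n⟩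
  · have : σ • (Point.zero : (W'⁄K).Point) = 0 := by
      change σ • (0 : (W'⁄K).Point) = 0
      rw [smul_zero]
    rw [this]
    exact inE1_zero
  · change v 1 < v (σ x)
    rw [hσv]
    exact hP

/-- Main local statement, branches fixed: `σ P - P ∈ E₁` for `P = 2 Q`, `Q` of `2`-power order. -/
theorem smul_sub_inE1_two (h : Crit v (W'⁄K) x₀ y₀ α β) (h2 : v (2 : K) < 1) {σ : K ≃ₐ[S] K}
    (hσv : ∀ x, v (σ x) = v x) (hx₀ : σ x₀ = x₀) (hy₀ : σ y₀ = y₀)
    (hα : σ α = α) (hβ : σ β = β) {Q : (W'⁄K).Point} {m : ℕ} (hQ : 2 ^ m • Q = 0) :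
    InE1 v (xX (W := W'⁄K)) xZ (σ • (2 • Q) - 2 • Q) := by
  have key : ∀ P : (W'⁄K).Point, 2 ^ m • P = 0 →
      (∀ x y n, P = .some x y n → Nd v x₀ y₀ P →
        v ((y - y₀) - α * (x - x₀)) ≠ v ((y - y₀) - β * (x - x₀))) →
      InE1 v (xX (W := W'⁄K)) xZ (σ • P - P) := by
    intro P hP hne
    by_cases hnd : Nd v x₀ y₀ P
    · refine crit_inE1_of_torsion (n := m) h h2 ?_ ?_
      · rcases P with _ | ⟨x, y, n⟩
        · exact absurd hnd id
        · exact not_nd_fix h hσv hx₀ hy₀ hα hβ n hnd (hne x y n rfl hnd)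
      · rw [nsmul_sub, ← smul_comm σ (2 ^ m) P, hP, smul_zero, sub_zero]
    · have h1 := crit_inE1_of_torsion h h2 hnd hP
      exact inE1_sub h.isInt (inE1_smul hσv h1) h1
  by_cases hmid : ∀ x y n, Q = .some x y n → Nd v x₀ y₀ Q →
        v ((y - y₀) - α * (x - x₀)) ≠ v ((y - y₀) - β * (x - x₀))
  · have h1 := key Q hQ hmid
    have h3 : σ • (2 • Q) - 2 • Q = 2 • (σ • Q - Q) := by
      rw [nsmul_sub, smul_comm]
    rw [h3]
    exact inE1_nsmul h.isInt h1 2
  · push Not at hmid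
    obtain ⟨x, y, n, rfl, hnd, heq⟩ := hmid
    refine key _ ?_ ?_
    · rw [smul_comm, hQ, smul_zero]
    · intro _ _ _ _ hnd2
      exfalso
      rw [two_nsmul] at hnd2
      exact h.not_nd_two n hnd.1 heq hnd2

/-- Main local statement, branches exchanged. -/
theorem smul_add_inE1_two (h : Crit v (W'⁄K) x₀ y₀ α β) (h2 : v (2 : K) < 1) {σ : K ≃ₐ[S] K}
    (hσv : ∀ x, v (σ x) = v x) (hx₀ : σ x₀ = x₀) (hy₀ : σ y₀ = y₀)
    (hα : σ α = β) (hβ : σ β = α) {Q : (W'⁄K).Point} {m : ℕ} (hQ : 2 ^ m • Q = 0) :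
    InE1 v (xX (W := W'⁄K)) xZ (σ • (2 • Q) + 2 • Q) := by
  have key : ∀ P : (W'⁄K).Point, 2 ^ m • P = 0 →
      (∀ x y n, P = .some x y n → Nd v x₀ y₀ P →
        v ((y - y₀) - α * (x - x₀)) ≠ v ((y - y₀) - β * (x - x₀))) →
      InE1 v (xX (W := W'⁄K)) xZ (σ • P + P) := by
    intro P hP hne
    by_cases hnd : Nd v x₀ y₀ P
    · refine crit_inE1_of_torsion (n := m) h h2 ?_ ?_
      · rcases P with _ | ⟨x, y, n⟩
        · exact absurd hnd id
        · exact not_nd_swap h hσv hx₀ hy₀ hα hβ n hnd (hne x y n rfl hnd)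
      · rw [nsmul_add, ← smul_comm σ (2 ^ m) P, hP, smul_zero, add_zero]
    · have h1 := crit_inE1_of_torsion h h2 hnd hP
      exact inE1_add h.isInt (inE1_smul hσv h1) h1
  by_cases hmid : ∀ x y n, Q = .some x y n → Nd v x₀ y₀ Q →
        v ((y - y₀) - α * (x - x₀)) ≠ v ((y - y₀) - β * (x - x₀))
  · have h1 := key Q hQ hmid
    have h3 : σ • (2 • Q) + 2 • Q = 2 • (σ • Q + Q) := by
      rw [nsmul_add, smul_comm]
    rw [h3]
    exact inE1_nsmul h.isInt h1 2
  · push Not at hmid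
    obtain ⟨x, y, n, rfl, hnd, heq⟩ := hmid
    refine key _ ?_ ?_
    · rw [smul_comm, hQ, smul_zero]
    · intro _ _ _ _ hnd2
      exfalso
      rw [two_nsmul] at hnd2
      exact h.not_nd_two n hnd.1 heq hnd2

/-- The critical data under the decomposition group, residue characteristic `2`. -/
theorem crit_decomp [CharZero K] (h : Crit v (W'⁄K) x₀ y₀ α β) (h2 : v (2 : K) < 1)
    {σ : K ≃ₐ[S] K} (hσv : ∀ x, v (σ x) = v x) :
    σ x₀ = x₀ ∧ σ y₀ = y₀ ∧ ((σ α = α ∧ σ β = β) ∨ (σ α = β ∧ σ β = α)) := by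
  have c1 : σ (W'⁄K).a₁ = (W'⁄K).a₁ := ERep.smul_algebraMap σ W'.a₁
  have c2 : σ (W'⁄K).a₂ = (W'⁄K).a₂ := ERep.smul_algebraMap σ W'.a₂
  have c3 : σ (W'⁄K).a₃ = (W'⁄K).a₃ := ERep.smul_algebraMap σ W'.a₃
  have c4 : σ (W'⁄K).a₄ = (W'⁄K).a₄ := ERep.smul_algebraMap σ W'.a₄
  have cb2 : σ (W'⁄K).b₂ = (W'⁄K).b₂ := by
    simp only [b₂, map_add, map_mul, map_pow, c1, c2, map_ofNat]
  have cb4 : σ (W'⁄K).b₄ = (W'⁄K).b₄ := by
    simp only [b₄, map_add, map_mul, c1, c3, c4, map_ofNat]
  have hx : σ x₀ = x₀ := by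
    have e1 := h.h_eq
    have e2 := congrArg σ e1
    simp only [map_add, map_mul, map_pow, map_ofNat, _root_.map_zero, cb2, cb4] at e2
    have e3 : (σ x₀ - x₀) * (((W'⁄K).b₂ + 12 * x₀) + 6 * (σ x₀ - x₀)) = 0 := by
      linear_combination e2 - e1
    rcases mul_eq_zero.mp e3 with e4 | e4
    · exact sub_eq_zero.mp e4
    · exfalso
      have h1 : v ((W'⁄K).b₂ + 12 * x₀) = 1 := by
        rw [← h.s_eq, map_pow, h.unit, one_pow]
      have h3 : v (6 * (σ x₀ - x₀)) < 1 := by
        have e : (6 : K) * (σ x₀ - x₀) = 2 * (((3 : ℕ) : K) * (σ x₀ - x₀)) := by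
          push_cast; ring
        rw [e]
        exact mul_lt h2 (im (mul_mem (natCast_mem_integer v 3)
          (sub_mem (mi (by rw [hσv]; exact h.x₀_le)) (mi h.x₀_le))))
      have h4 := v.map_add_eq_of_lt_left (x := (W'⁄K).b₂ + 12 * x₀) (y := 6 * (σ x₀ - x₀))
        (by rw [h1]; exact h3)
      rw [e4, _root_.map_zero, h1] at h4
      exact zero_ne_one h4
  have hy : σ y₀ = y₀ := by
    have e1 := h.dy
    have e2 := congrArg σ e1
    simp only [map_add, map_mul, map_ofNat, _root_.map_zero, c1, c3, hx] at e2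
    have h2 : (2 : K) ≠ 0 := two_ne_zero
    apply mul_left_cancel₀ h2
    linear_combination e2 - e1
  refine ⟨hx, hy, ?_⟩
  have hroot : ∀ γ γ' : K, γ + γ' = -(W'⁄K).a₁ → γ * γ' = -((W'⁄K).a₂ + 3 * x₀) →
      σ γ = γ ∨ σ γ = γ' := by
    intro γ γ' h1 h2
    have e1 : γ ^ 2 + (W'⁄K).a₁ * γ - ((W'⁄K).a₂ + 3 * x₀) = 0 := by
      linear_combination γ * h1 - h2
    have e2 := congrArg σ e1
    simp only [map_add, map_sub, map_mul, map_pow, map_ofNat, _root_.map_zero, c1, c2, hx] at e2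
    have e3 : (σ γ - γ) * ((σ γ - γ) - (γ' - γ)) = 0 := by
      linear_combination e2 - e1 - (σ γ - γ) * h1
    rcases mul_eq_zero.mp e3 with e4 | e4
    · exact Or.inl (sub_eq_zero.mp e4)
    · right
      linear_combination e4
  have hsum := congrArg σ h.sum
  simp only [map_add, map_neg, c1] at hsum
  have hs := h.sum
  rcases hroot α β h.sum h.prod with e | e
  · left
    refine ⟨e, ?_⟩
    linear_combination hsum - hs - e
  · right
    refine ⟨e, ?_⟩
    linear_combination hsum - hs - e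

end Galois

end Fermat.Agent.ZEC
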