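import Fermat.Agent.ZEC.Odd
import Fermat.Agent.ZThm.Step4c
import Fermat.Agent.ZPsi.Field
import Fermat.Agent.ZCFT.Final

/-!
# The matrices of the `2`-adic representation: input for Step 4 of Theorem Z
-/

set_option autoImplicit false

namespace Fermat.Agent.ZEC

open WeierstrassCurve WeierstrassCurve.Affine WeierstrassCurve.Affine.Point
open Fermat.Agent.EC Fermat.Agent.ERep Fermat.Agent.Tate Fermat.Agent.FrobE Fermat.Agent.QuadRep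

local notation "Qb" => AlgebraicClosure ℚ
local notation "GQ" => AlgebraicClosure ℚ ≃ₐ[ℚ] AlgebraicClosure ℚ

section Mat

open Matrix

/-- matrices whose columns are proportional to `e` -/
theorem adj_mul_eq_zero {R : Type*} [CommRing R] [IsDomain R] (e : Fin 2 → R)
    (φ : (Fin 2 → R) →ₗ[R] R) (hφ : ∀ x, φ x = 0 ↔ ∃ a : R, x = a • e)
    (A B : Matrix (Fin 2) (Fin 2) R) (hA : ∀ x, φ (A.mulVec x) = 0)
    (hB : ∀ x, φ (B.mulVec x) = 0) : A.adjugate * B = 0 := by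
  have hc : ∀ (M : Matrix (Fin 2) (Fin 2) R), (∀ x, φ (M.mulVec x) = 0) →
      ∃ α : Fin 2 → R, ∀ i j, M i j = α j * e i := by
    intro M hM
    have h1 : ∀ j, ∃ a : R, M.mulVec (Pi.single j 1) = a • e := fun j => (hφ _).1 (hM _)
    choose α hα using h1
    refine ⟨α, fun i j => ?_⟩
    have h2 := congrFun (hα j) i
    rwa [Matrix.mulVec_single_one] at h2
  obtain ⟨α, hα⟩ := hc A hA
  obtain ⟨β, hβ⟩ := hc B hB
  ext i j
  rw [Matrix.mul_apply, Fin.sum_univ_two, Matrix.zero_apply, Matrix.adjugate_fin_two]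
  fin_cases i
  · simp only [Matrix.of_apply, Matrix.cons_val', Matrix.cons_val_zero, Matrix.cons_val_one,
      Matrix.cons_val_fin_one, Fin.zero_eta, hα, hβ]
    ring
  · simp only [Matrix.of_apply, Matrix.cons_val', Matrix.cons_val_zero, Matrix.cons_val_one,
      Matrix.cons_val_fin_one, Fin.mk_one, hα, hβ]
    ring

theorem det_sub_one {R : Type*} [CommRing R] (A : Matrix (Fin 2) (Fin 2) R) :
    (A - 1).det = 1 - A.trace + A.det := by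
  rw [Matrix.det_fin_two, Matrix.det_fin_two, Matrix.trace_fin_two]
  simp only [Matrix.sub_apply, Matrix.one_apply_eq]
  rw [Matrix.one_apply_ne (by decide : (0 : Fin 2) ≠ 1), Matrix.one_apply_ne (by decide : (1 : Fin 2) ≠ 0)]
  ring

end Mat

section Def

variable (E : WeierstrassCurve ℚ) [E.IsElliptic]

/-- The matrices of the `2`-adic representation of `E`. -/
noncomputable def REm : GQ →* Matrix (Fin 2) (Fin 2) ℤ_[2] :=
  (LinearMap.toMatrixAlgEquiv' (R := ℤ_[2]) (n := Fin 2)).toRingEquiv.toRingHom.toMonoidHom.comp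
    (repE E 2)

theorem REm_apply (s : GQ) : REm E s = LinearMap.toMatrix' (repE E 2 s) := rfl

theorem REm_mulVec (s : GQ) (x : Fin 2 → ℤ_[2]) : (REm E s).mulVec x = repE E 2 s x :=
  LinearMap.toMatrix'_mulVec _ x

/-- (c) -/
theorem REm_red (g : GQ) : (REm E g).map PadicInt.toZMod = rbE E g := rfl

theorem REm_trace (g : GQ) : (REm E g).trace = trE E 2 g := by
  rw [trE, LinearMap.trace_eq_matrix_trace ℤ_[2] (Pi.basisFun ℤ_[2] (Fin 2)),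
    LinearMap.toMatrix_eq_toMatrix', REm_apply]

theorem REm_det' (g : GQ) : (REm E g).det = LinearMap.det (repE E 2 g) := by
  rw [REm_apply, LinearMap.det_toMatrix']

theorem REm_det {W : WeierstrassCurve ℤ} (hWE : W.IsIntegralModelOf E) (hns : NonScalar E 2)
    (g : GQ) : (REm E g).det = cycE 2 g := by
  rw [REm_det', det_eq_cyc E 2 hWE hns]

/-- (d) -/
theorem REm_smooth (K : ℕ) : ∃ L : IntermediateField ℚ Qb, FiniteDimensional ℚ L ∧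
    ∀ σ : GQ, (∀ x ∈ L, σ x = x) →
      ∃ Y : Matrix (Fin 2) (Fin 2) ℤ_[2], REm E σ - 1 = (2 : ℤ_[2]) ^ K • Y := by
  obtain ⟨L, hL, h⟩ := repE_smooth E K
  refine ⟨L, hL, fun σ hσ => ?_⟩
  choose c hc using fun i j => h σ hσ i j
  exact ⟨Matrix.of c, by ext i j; exact hc i j⟩

/-- (e) -/
theorem REm_inertia_good {W : WeierstrassCurve ℤ} (hWE : W.IsIntegralModelOf E) {ℓ : ℕ}
    (hℓ : ℓ.Prime) (hℓ2 : ℓ ≠ 2) (hW : W.IsGoodPrimeFor ℓ) {B : ValuationSubring Qb}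
    (hB : B.LiesOverPrime ℓ) {s : GQ} (hs : s ∈ B.inertiaSubgroupIn ℚ) : REm E s = 1 := by
  rw [REm_apply, repE_inertia_good E 2 hWE hℓ hB hℓ2 hW hs, LinearMap.toMatrix'_one]

/-- (f) -/
theorem exists_gens {W : WeierstrassCurve ℤ} (hWE : W.IsIntegralModelOf E) (hΔ : W.Δ < 0)
    (hnr : ∀ x : ℚ, 4 * x ^ 3 + (W.b₂ : ℚ) * x ^ 2 + 2 * (W.b₄ : ℚ) * x + (W.b₆ : ℚ) ≠ 0) :
    ∃ g₁ g₂ : GQ, rbE E g₁ = !![1, 1; 0, 1] ∧ rbE E g₂ = !![1, 0; 1, 1] := by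
  have hsq : ¬ IsSquare ((W.Δ : ℤ) : ℚ) := by
    rintro ⟨r, hr⟩
    have h1 : ((W.Δ : ℤ) : ℚ) < 0 := by exact_mod_cast hΔ
    have h2 := mul_self_nonneg r
    rw [← hr] at h2
    exact absurd h1 (not_lt.mpr h2)
  obtain ⟨g₁, h₁⟩ := rbE_surjective E hWE hnr hsq (M := !![1, 1; 0, 1]) (by decide)
  obtain ⟨g₂, h₂⟩ := rbE_surjective E hWE hnr hsq (M := !![1, 0; 1, 1]) (by decide)
  exact ⟨g₁, g₂, h₁, h₂⟩

end Def

section Bad

variable (E : WeierstrassCurve ℚ) [E.IsElliptic] {W : WeierstrassCurve ℤ}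
  (hWE : W.IsIntegralModelOf E)

include hWE

/-- The line in the Tate module at a multiplicative prime. -/
theorem exists_line_all (hns : NonScalar E 2) {v : ℕ} (hv : v.Prime) {B : ValuationSubring Qb}
    (hB : B.LiesOverPrime v) (hΔ : (v : ℤ) ∣ W.Δ) (hc : ¬ (v : ℤ) ∣ W.c₄) :
    ∃ (e : Fin 2 → ℤ_[2]) (φ : (Fin 2 → ℤ_[2]) →ₗ[ℤ_[2]] ℤ_[2]) (z : GQ → ℤ),
      (∃ i, IsUnit (e i)) ∧ Function.Surjective φ ∧
      (∀ x, φ x = 0 ↔ ∃ a : ℤ_[2], x = a • e) ∧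
      (∀ s ∈ B.decompositionSubgroup ℚ, z s = 1 ∨ z s = -1) ∧
      (∀ s ∈ B.inertiaSubgroupIn ℚ, z s = 1) ∧
      (∀ s ∈ B.decompositionSubgroup ℚ, ∀ t ∈ B.decompositionSubgroup ℚ,
        z (s * t) = z s * z t) ∧
      (∀ s ∈ B.decompositionSubgroup ℚ, ∀ x, φ (repE E 2 s x) = (z s : ℤ_[2]) * φ x) ∧
      (∀ s ∈ B.decompositionSubgroup ℚ, repE E 2 s e = ((z s : ℤ_[2]) * cycE 2 s) • e) := by
  by_cases h2 : v = 2
  · subst h2
    exact exists_line E hWE hB hΔ hc hns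
  · exact exists_line_odd E hWE hv h2 hB hΔ hc hns

/-- (a): for every multiplicative place there is a sign `z Φ` for all `Φ` in the decomposition group
such that the products vanish. -/
theorem ell_bad (hns : NonScalar E 2) {v : ℕ} (hv : v.Prime) {B : ValuationSubring Qb}
    (hB : B.LiesOverPrime v) (hΔ : (v : ℤ) ∣ W.Δ) (hc : ¬ (v : ℤ) ∣ W.c₄) {Φ : GQ}
    (hΦ : Φ ∈ B.decompositionSubgroup ℚ) :
    ∃ z : ℤ, (z = 1 ∨ z = -1) ∧ (z : ℤ_[2]) * (z : ℤ_[2]) = 1 ∧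
      ∀ p ∈ ZThm.pairs (B.inertiaSubgroupIn ℚ) Φ (z : ℤ_[2]),
      ∀ q ∈ ZThm.pairs (B.inertiaSubgroupIn ℚ) Φ (z : ℤ_[2]),
        (REm E q.1 - q.2 • (1 : Matrix (Fin 2) (Fin 2) ℤ_[2])).adjugate *
          (REm E p.1 - p.2 • (1 : Matrix (Fin 2) (Fin 2) ℤ_[2])) = 0 := by
  obtain ⟨e, φ, z, -, -, hφ, hz1, hz2, -, hφs, -⟩ := exists_line_all E hWE hns hv hB hΔ hc
  have hI : ∀ s ∈ B.inertiaSubgroupIn ℚ, s ∈ B.decompositionSubgroup ℚ := fun s hs => by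
    obtain ⟨g, -, rfl⟩ := hs
    exact g.2
  refine ⟨z Φ, hz1 Φ hΦ, ?_, ?_⟩
  · rcases hz1 Φ hΦ with h | h <;> rw [h] <;> norm_num
  have key : ∀ p ∈ ZThm.pairs (B.inertiaSubgroupIn ℚ) Φ ((z Φ : ℤ) : ℤ_[2]), ∀ x,
      φ ((REm E p.1 - p.2 • (1 : Matrix (Fin 2) (Fin 2) ℤ_[2])).mulVec x) = 0 := by
    intro p hp x
    have h1 : p.1 ∈ B.decompositionSubgroup ℚ ∧ p.2 = (z p.1 : ℤ_[2]) := by
      rcases hp with ⟨h, h'⟩ | rfl
      · exact ⟨hI _ h, by rw [h', hz2 _ h, Int.cast_one]⟩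
      · exact ⟨hΦ, rfl⟩
    rw [Matrix.sub_mulVec, Matrix.smul_mulVec, Matrix.one_mulVec, map_sub, REm_mulVec,
      hφs _ h1.1, map_smul, smul_eq_mul, h1.2, sub_self]
  intro p hp q hq
  exact adj_mul_eq_zero e φ hφ _ _ (key q hq) (key p hp)

/-- (a) in the form needed for `LLoc.ell` -/
theorem ell_bad' (hns : NonScalar E 2) {v : ℕ} (hv : v.Prime) {B : ValuationSubring Qb}
    (hB : B.LiesOverPrime v) (hΔ : (v : ℤ) ∣ W.Δ) (hc : ¬ (v : ℤ) ∣ W.c₄) {Φ : GQ}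
    (hΦ : Φ ∈ B.decompositionSubgroup ℚ) :
    ∃ z : ℤ, (z = 1 ∨ z = -1) ∧ (z : ℤ_[2]) * (z : ℤ_[2]) = 1 ∧
      ∀ k : ℕ, ∀ p ∈ ZThm.pairs (B.inertiaSubgroupIn ℚ) Φ (z : ℤ_[2]),
      ∀ q ∈ ZThm.pairs (B.inertiaSubgroupIn ℚ) Φ (z : ℤ_[2]),
        ∃ Y : ZThm.M2 ℤ_[2], (REm E q.1 - q.2 • (1 : ZThm.M2 ℤ_[2])).adjugate *
          (REm E p.1 - p.2 • (1 : ZThm.M2 ℤ_[2])) = (2 : ℤ_[2]) ^ k • Y := by
  obtain ⟨z, h1, h2, h3⟩ := ell_bad E hWE hns hv hB hΔ hc hΦ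
  exact ⟨z, h1, h2, fun k p hp q hq => ⟨0, by rw [smul_zero]; exact h3 p hp q hq⟩⟩

/-- (b) auxiliary primes -/
theorem ell_aux (hns : NonScalar E 2) {q : ℕ} (hq : q.Prime) (hq2 : q ≠ 2)
    (hW : W.IsGoodPrimeFor q) {B : ValuationSubring Qb}
    (hB : B.LiesOverPrime q) {Φ : GQ} (hΦ : B.IsFrobeniusAt Φ q) {k : ℕ}
    (h1 : (2 : ℤ) ^ k ∣ (q : ℤ) - 1) (h2 : (2 : ℤ) ^ k ∣ W.apOfModel q - 2) :
    ∀ r ∈ ZThm.pairs (B.inertiaSubgroupIn ℚ) Φ (1 : ℤ_[2]),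
    ∀ t ∈ ZThm.pairs (B.inertiaSubgroupIn ℚ) Φ (1 : ℤ_[2]),
      ∃ Y : ZThm.M2 ℤ_[2], (REm E t.1 - t.2 • (1 : ZThm.M2 ℤ_[2])).adjugate *
          (REm E r.1 - r.2 • (1 : ZThm.M2 ℤ_[2])) = (2 : ℤ_[2]) ^ k • Y := by
  have key : ∀ r ∈ ZThm.pairs (B.inertiaSubgroupIn ℚ) Φ (1 : ℤ_[2]),
      REm E r.1 - r.2 • (1 : ZThm.M2 ℤ_[2]) = 0 ∨
      REm E r.1 - r.2 • (1 : ZThm.M2 ℤ_[2]) = REm E Φ - 1 := by
    intro r hr
    rcases hr with ⟨h, h'⟩ | rfl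
    · left
      rw [REm_inertia_good E hWE hq hq2 hW hB h, h', one_smul, sub_self]
    · right
      rw [one_smul]
  intro r hr t ht
  rcases key r hr with e1 | e1
  · exact ⟨0, by rw [e1, mul_zero, smul_zero]⟩
  rcases key t ht with e2 | e2
  · refine ⟨0, ?_⟩
    have h0 : (0 : ZThm.M2 ℤ_[2]).adjugate = 0 := by
      rw [Matrix.adjugate_fin_two]
      ext i j
      fin_cases i <;> fin_cases j <;> simp
    rw [e2, h0, zero_mul, smul_zero]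
  rw [e1, e2, Matrix.adjugate_mul, det_sub_one, REm_trace, REm_det E hWE hns,
    trE_frob E 2 hWE hns hq hB hq2 hW hΦ]
  have hcyc : cycE 2 Φ = (q : ℤ_[2]) := cyc_frobenius (p_mem 2) hq hq2 hB hΦ
  rw [hcyc]
  obtain ⟨a, ha⟩ := h1
  obtain ⟨b, hb⟩ := h2
  refine ⟨((a : ℤ_[2]) - (b : ℤ_[2])) • 1, ?_⟩
  rw [smul_smul]
  congr 1
  have ha' : (q : ℤ_[2]) - 1 = 2 ^ k * (a : ℤ_[2]) := by
    have := congrArg (Int.cast : ℤ → ℤ_[2]) ha
    push_cast at this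
    exact this
  have hb' : ((W.apOfModel q : ℤ) : ℤ_[2]) - 2 = 2 ^ k * (b : ℤ_[2]) := by
    have := congrArg (Int.cast : ℤ → ℤ_[2]) hb
    push_cast at this
    exact this
  linear_combination ha' - hb'

/-- the nontrivial element of inertia -/
theorem exists_inertia_ne_one {v : ℕ} (hv : v.Prime) {B : ValuationSubring Qb}
    (hB : B.LiesOverPrime v) (hodd : Odd (padicValInt v W.Δ)) :
    ∃ s₀ ∈ B.inertiaSubgroupIn ℚ, rbE E s₀ ≠ 1 := by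
  obtain ⟨s, hs, -, -, h⟩ := exists_inertia_rbE E hWE hv hB hodd
  exact ⟨s, hs, h⟩

end Bad

section CF

open NumberField

variable (E : WeierstrassCurve ℚ) [E.IsElliptic] {W : WeierstrassCurve ℤ}
  (hWE : W.IsIntegralModelOf E) (hΔ : W.Δ < 0)
  (hodd : ∀ l : ℕ, l.Prime → (l : ℤ) ∣ W.Δ → Odd (padicValInt l W.Δ))
  {N : ℕ} (hNsq : Squarefree N) (hN : ∀ l : ℕ, l.Prime → (l ∣ N ↔ (l : ℤ) ∣ W.Δ))

include hWE hΔ hodd hNsq hN

/-- The class field theory bound. -/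
theorem cfBound (hdet0 : ∀ g, (rbE E g).det = 1) :
    ZThm.CFBound (rbE E) hdet0
      (Nat.card {x : ClassGroup (𝓞 (ZPsi.KN N)) // ∃ k : ℕ, x ^ (2 ^ k) = 1}) := by
  intro V hV hVo hVn hab h2p hI
  have hfix : (ZPsi.KN N).fixingSubgroup = ZThm.evenSub (rbE E) hdet0 :=
    ZPsi.fix_eq_even E hWE hΔ hodd hNsq hN hdet0
  rw [← hfix] at hV hVn hab h2p hI ⊢
  have hN0 : N ≠ 0 := hNsq.ne_zero
  refine ZCFT.cf1 (ZPsi.KN N) inferInstance (ZPsi.index_KN hN0)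
    ⟨ZPsi.sN N, ZPsi.sN_mem N, N, Nat.pos_of_ne_zero hN0, ZPsi.sN_sq N⟩ V hV ?_ hVn ?_ ?_ ?_
  · obtain ⟨L, hL, h⟩ := hVo
    refine ⟨L, hL, fun σ hσ => h σ ?_⟩
    exact (IntermediateField.mem_fixingSubgroup_iff _ _).1 hσ
  · intro a ha b hb
    have := hab a⁻¹ (inv_mem ha) b⁻¹ (inv_mem hb)
    rwa [inv_inv, inv_inv] at this
  · intro a ha
    obtain ⟨k, hk⟩ := h2p
    exact ⟨k, hk a ha⟩
  · intro q hq A hA s hs hsK
    exact hI q hq A hA s hs hsK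

end CF

end Fermat.Agent.ZEC
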