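import Mathlib

/-!
# `GL₂(𝔽₂)`
-/

set_option autoImplicit false

namespace Fermat.Agent.ZEC

/-- `2 × 2` matrices over `𝔽₂` -/
abbrev Mt := Matrix (Fin 2) (Fin 2) (ZMod 2)

/-- first basis vector -/
def t₁ : Fin 2 → ZMod 2 := ![1, 0]
/-- second basis vector -/
def t₂ : Fin 2 → ZMod 2 := ![0, 1]
/-- sum of the basis vectors -/
def t₃ : Fin 2 → ZMod 2 := ![1, 1]

theorem forall_mt {P : Mt → Prop} (h : ∀ a b c d : ZMod 2, P !![a, b; c, d]) (M : Mt) : P M := by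
  have : M = !![M 0 0, M 0 1; M 1 0, M 1 1] := by
    ext i j; fin_cases i <;> fin_cases j <;> rfl
  rw [this]
  exact h _ _ _ _

theorem six (M : Mt) (hM : M.det ≠ 0) :
    (M ^ 3 = 1 ∧ ((M.mulVec t₁ = t₁ ∧ M.mulVec t₂ = t₂ ∧ M.mulVec t₃ = t₃) ∨
      (M.mulVec t₁ = t₂ ∧ M.mulVec t₂ = t₃ ∧ M.mulVec t₃ = t₁) ∨
      (M.mulVec t₁ = t₃ ∧ M.mulVec t₂ = t₁ ∧ M.mulVec t₃ = t₂))) ∨
    (M ^ 3 ≠ 1 ∧ M ^ 2 = 1 ∧ ((M.mulVec t₁ = t₁ ∧ M.mulVec t₂ = t₃ ∧ M.mulVec t₃ = t₂) ∨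
      (M.mulVec t₁ = t₂ ∧ M.mulVec t₂ = t₁ ∧ M.mulVec t₃ = t₃) ∨
      (M.mulVec t₁ = t₃ ∧ M.mulVec t₂ = t₂ ∧ M.mulVec t₃ = t₁))) := by
  revert hM
  rw [Matrix.det_fin_two]
  revert M
  refine forall_mt ?_
  decide

theorem nonzero (t : Fin 2 → ZMod 2) (ht : t ≠ 0) : t = t₁ ∨ t = t₂ ∨ t = t₃ := by
  revert t
  decide

/-- a matrix of determinant `≠ 0` with cube `1` and trace... either `1` or of order `3` -/
theorem cube (M : Mt) (h : M ^ 3 = 1) : M = 1 ∨ M = !![0, 1; 1, 1] ∨ M = !![1, 1; 1, 0] := by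
  revert h
  revert M
  refine forall_mt ?_
  decide

theorem square (M : Mt) (h : M ^ 2 = 1) (h3 : M ^ 3 ≠ 1) :
    M = !![0, 1; 1, 0] ∨ M = !![1, 1; 0, 1] ∨ M = !![1, 0; 1, 1] := by
  revert h h3
  revert M
  refine forall_mt ?_
  decide

theorem word (M₃ M₂ M : Mt) (h3 : M₃ ^ 3 = 1) (h3' : M₃ ≠ 1) (h2 : M₂ ^ 2 = 1) (h2' : M₂ ^ 3 ≠ 1)
    (hM : M.det ≠ 0) : ∃ i : Fin 3, ∃ j : Fin 2, M = M₃ ^ (i : ℕ) * M₂ ^ (j : ℕ) := by
  revert hM
  rw [Matrix.det_fin_two]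
  rcases cube M₃ h3 with h | h | h
  · exact absurd h h3'
  · rcases square M₂ h2 h2' with h' | h' | h' <;>
    · rw [h, h']
      clear h h' h3 h3' h2 h2'
      revert M
      refine forall_mt ?_
      decide
  · rcases square M₂ h2 h2' with h' | h' | h' <;>
    · rw [h, h']
      clear h h' h3 h3' h2 h2'
      revert M
      refine forall_mt ?_
      decide

/-- if the product of two involutions is not of order `3` they have the same fixed vectors -/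
theorem common (M₀ M : Mt) (h0 : M₀ ^ 2 = 1) (h0' : M₀ ^ 3 ≠ 1) (hM : M.det ≠ 0)
    (h3 : M ^ 3 = 1 → M = 1) (h3' : (M * M₀) ^ 3 = 1 → M * M₀ = 1) (t : Fin 2 → ZMod 2)
    (ht : M₀.mulVec t = t) : M.mulVec t = t := by
  have hE : M = 1 ∨ M = M₀ := by
    revert hM h3 h3'
    rw [Matrix.det_fin_two]
    rcases square M₀ h0 h0' with h | h | h <;>
    · rw [h]
      clear h h0 h0' ht
      revert M
      refine forall_mt ?_
      decide
  rcases hE with rfl | rfl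
  · exact Matrix.one_mulVec t
  · exact ht

end Fermat.Agent.ZEC
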