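import Fermat.Agent.ZEC.Facts
import Fermat.Agent.Frob.Exists

/-!
# The line in the `2`-adic Tate module at odd multiplicative primes
-/

set_option autoImplicit false

namespace Fermat.Agent.ZEC

open WeierstrassCurve WeierstrassCurve.Affine WeierstrassCurve.Affine.Point
open Fermat.Agent.EC Fermat.Agent.ERep Fermat.Agent.Tate Fermat.Agent.FrobE
open Fermat.Agent.ECP (NodeData)

local notation "Qb" => AlgebraicClosure ℚ
local notation "GQ" => AlgebraicClosure ℚ ≃ₐ[ℚ] AlgebraicClosure ℚ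

section Node

variable {K Γ₀ : Type*} [Field K] [CharZero K] [IsAlgClosed K]
  [LinearOrderedCommGroupWithZero Γ₀] {v : Valuation K Γ₀} {W : Affine K} {x₀ y₀ α β : K}

/-- There is a `2`-torsion point reducing to the node in odd residue characteristic. -/
theorem exists_nodeData (h : Crit v W x₀ y₀ α β) (h2 : v (2 : K) = 1) (hΔ : W.Δ ≠ 0) :
    ∃ e t b : K, NodeData v W e t b ∧ v (e - x₀) < 1 := by
  have h2' : (2 : K) ≠ 0 := two_ne_zero
  obtain ⟨e₁, e₂, e₃, k1, k2, k3⟩ := exists_roots W.b₂ W.b₄ W.b₆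
  have h4 : v (4 : K) = 1 := by
    have : (4 : K) = 2 * 2 := by norm_num
    rw [this, map_mul, h2, one_mul]
  have hfac : ∀ e : K, 4 * e ^ 3 + W.b₂ * e ^ 2 + 2 * W.b₄ * e + W.b₆ =
        4 * ((e - e₁) * (e - e₂) * (e - e₃)) := by
    intro e
    linear_combination (e ^ 2) * k1 - (2 * e) * k2 + k3
  have hroot : ∀ e : K, (e = e₁ ∨ e = e₂ ∨ e = e₃) →
      4 * e ^ 3 + W.b₂ * e ^ 2 + 2 * W.b₄ * e + W.b₆ = 0 := by
    intro e he
    rw [hfac]
    rcases he with rfl | rfl | rfl <;> ring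
  obtain ⟨e, he, hlt⟩ : ∃ e, (e = e₁ ∨ e = e₂ ∨ e = e₃) ∧ v (e - x₀) < 1 := by
    by_contra hcon
    push Not at hcon
    have h5 := F₀_formula h.dy
    rw [hfac] at h5
    have h6 : F₀ W x₀ y₀ = (e₁ - x₀) * (e₂ - x₀) * (e₃ - x₀) := by
      have h44 : (4 : K) ≠ 0 := by norm_num
      apply mul_left_cancel₀ h44
      linear_combination h5
    have h7 := h.F₀_lt
    rw [h6, map_mul, map_mul] at h7
    exact absurd h7 (not_lt.mpr (one_le_mul (one_le_mul (hcon _ (by tauto)) (hcon _ (by tauto)))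
      (hcon _ (by tauto))))
  have he1 : v e ≤ 1 := by
    have : e = (e - x₀) + x₀ := by ring
    rw [this]
    exact im (add_mem (mem_of_lt hlt) (mi h.x₀_le))
  have hr := hroot e he
  set t : K := -(W.a₁ * e + W.a₃) / 2 with ht
  have ht2 : 2 * t + W.a₁ * e + W.a₃ = 0 := by rw [ht]; field_simp; ring
  set b : K := 3 * e ^ 2 + 2 * W.a₂ * e + W.a₄ - W.a₁ * t with hb
  have hb4 : W.b₄ + W.b₂ * e + 6 * e ^ 2 = 2 * b := by
    rw [hb, b₄, b₂]
    linear_combination W.a₁ * ht2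
  have hb8 : W.b₈ + 3 * W.b₆ * e + 3 * W.b₄ * e ^ 2 + W.b₂ * e ^ 3 + 3 * e ^ 4 = -b ^ 2 := by
    have hbr := W.b_relation
    have h44 : (4 : K) ≠ 0 := by norm_num
    apply mul_left_cancel₀ h44
    have e1 : b ^ 2 * 4 = (W.b₄ + W.b₂ * e + 6 * e ^ 2) ^ 2 := by rw [hb4]; ring
    linear_combination hbr + e1 + (W.b₂ + 12 * e) * hr
  have hΔb : W.Δ = b ^ 2 * ((W.b₂ + 12 * e) ^ 2 - 64 * b) := by
    have e4 : W.b₄ = 2 * b - W.b₂ * e - 6 * e ^ 2 := by linear_combination hb4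
    have e6 : W.b₆ = -(2 * W.b₄ * e + W.b₂ * e ^ 2 + 4 * e ^ 3) := by linear_combination hr
    have e8 : W.b₈ = -b ^ 2 - 3 * W.b₆ * e - 3 * W.b₄ * e ^ 2 - W.b₂ * e ^ 3 - 3 * e ^ 4 := by
      linear_combination hb8
    rw [WeierstrassCurve.Δ, e8, e6, e4]
    ring
  have hb0 : b ≠ 0 := by
    intro h0
    apply hΔ
    rw [hΔb, h0]
    ring
  have hblt : v b < 1 := by
    have h5 := h.h_eq
    have h6 : 2 * b = (6 * (e + x₀) + W.b₂) * (e - x₀) := by
      rw [← hb4]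
      linear_combination h5
    have h7 : v (2 * b) < 1 := by
      rw [h6]
      exact mul_lt' (im (add_mem (mul_mem (natCast_mem_integer v 6)
        (add_mem (mi he1) (mi h.x₀_le))) (mi h.isInt.b₂))) hlt
    rwa [map_mul, h2, one_mul] at h7
  have hunit : v (W.b₂ + 12 * e) = 1 := by
    have h5 : v (W.b₂ + 12 * x₀) = 1 := by rw [← h.s_eq, map_pow, h.unit, one_pow]
    have h6 : W.b₂ + 12 * e = (W.b₂ + 12 * x₀) + 12 * (e - x₀) := by ring
    rw [h6, v.map_add_eq_of_lt_left, h5]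
    rw [h5]
    exact mul_lt' (natCast_mem_integer v 12) hlt
  refine ⟨e, t, b, ⟨h.isInt, he1, ?_, ht2, hb, ?_, hblt, hunit⟩, hlt⟩
  · have h44 : (4 : K) ≠ 0 := by norm_num
    apply mul_left_cancel₀ h44
    rw [b₂, b₄, b₆] at hr
    linear_combination (2 * t + W.a₁ * e + W.a₃) * ht2 - hr
  · exact zero_lt_iff.mpr ((Valuation.ne_zero_iff v).mpr hb0)

variable [DecidableEq K]

omit [CharZero K] [IsAlgClosed K] in
/-- `E₀` in terms of the critical point -/
theorem mem_E0_iff_nd (h : Crit v W x₀ y₀ α β) {e t b : K}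
    (hN : NodeData v W e t b) (he : v (e - x₀) < 1) (P : W.Point) :
    P ∈ hN.E0 ↔ ¬ Nd v x₀ y₀ P := by
  rcases P with _ | ⟨x, y, n⟩
  · exact ⟨fun _ => id, fun _ => zero_mem _⟩
  · have hmem : (.some x y n : W.Point) ∈ hN.E0 ↔ 1 ≤ v (x - e) := by
      rw [hN.mem_E0_iff]
      change v 1 ≤ v (x - e * 1) ↔ 1 ≤ v (x - e)
      rw [mul_one, Valuation.map_one]
    rw [hmem]
    constructor
    · intro h1 hnd
      have h3 : v (x - e) < 1 := by
        have : x - e = (x - x₀) - (e - x₀) := by ring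
        rw [this]
        exact sub_lt hnd.1 he
      exact absurd h1 (not_le.mpr h3)
    · intro hnd
      by_contra hcon
      rw [not_le] at hcon
      apply hnd
      have hx : v (x - x₀) < 1 := by
        have : x - x₀ = (x - e) + (e - x₀) := by ring
        rw [this]
        exact add_lt hcon he
      refine ⟨hx, ?_⟩
      have hx1 : v x ≤ 1 := by
        have : x = (x - x₀) + x₀ := by ring
        rw [this]
        exact im (add_mem (mem_of_lt hx) (mi h.x₀_le))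
      have hy1 : v y ≤ 1 := h.isInt.y_le_one n.1 hx1
      obtain ⟨hu, hw⟩ := h.uw_int hx1 hy1
      have hE := h.eqn n.1
      have hprod : v (((y - y₀) - α * (x - x₀)) * ((y - y₀) - β * (x - x₀))) < 1 := by
        rw [hE]
        refine sub_lt ?_ h.F₀_lt
        rw [map_pow]
        exact pow_lt_one₀ zero_le hx (by norm_num)
      have hult : v ((y - y₀) - α * (x - x₀)) < 1 := by
        by_contra hcon2
        rw [not_lt] at hcon2
        have h1 := le_antisymm hu hcon2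
        rw [map_mul, h1, one_mul] at hprod
        have h3 : ((y - y₀) - α * (x - x₀)) = ((y - y₀) - β * (x - x₀)) +
          (β - α) * (x - x₀) := by ring
        have h4 : v ((y - y₀) - α * (x - x₀)) < 1 := by
          rw [h3]
          exact add_lt hprod (mul_lt' h.unit.le hx)
        exact absurd hcon2 (not_le.mpr h4)
      have : y - y₀ = ((y - y₀) - α * (x - x₀)) + α * (x - x₀) := by ring
      rw [this]
      exact add_lt hult (mul_lt' h.α_le hx)

end Node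

section Galois

variable {R S K Γ₀ : Type*} [CommRing R] [CommRing S] [Field K] [DecidableEq K]
  [LinearOrderedCommGroupWithZero Γ₀] [Algebra R S] [Algebra R K] [Algebra S K]
  [IsScalarTower R S K] {v : Valuation K Γ₀} {W' : Affine R} {x₀ y₀ α β : K}

omit [DecidableEq K] in
/-- The critical data under the decomposition group, odd residue characteristic. -/
theorem crit_decomp_odd [CharZero K] (h : Crit v (W'⁄K) x₀ y₀ α β) (h2 : v (2 : K) = 1)
    {σ : K ≃ₐ[S] K} (hσv : ∀ x, v (σ x) = v x) :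
    σ x₀ = x₀ ∧ σ y₀ = y₀ ∧ ((σ α = α ∧ σ β = β) ∨ (σ α = β ∧ σ β = α)) := by
  have c1 : σ (W'⁄K).a₁ = (W'⁄K).a₁ := ERep.smul_algebraMap σ W'.a₁
  have c2 : σ (W'⁄K).a₂ = (W'⁄K).a₂ := ERep.smul_algebraMap σ W'.a₂
  have c3 : σ (W'⁄K).a₃ = (W'⁄K).a₃ := ERep.smul_algebraMap σ W'.a₃
  have c4 : σ (W'⁄K).a₄ = (W'⁄K).a₄ := ERep.smul_algebraMap σ W'.a₄
  have c6 : σ (W'⁄K).a₆ = (W'⁄K).a₆ := ERep.smul_algebraMap σ W'.a₆
  have cb2 : σ (W'⁄K).b₂ = (W'⁄K).b₂ := by
    simp only [b₂, map_add, map_mul, map_pow, c1, c2, map_ofNat]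
  have cb4 : σ (W'⁄K).b₄ = (W'⁄K).b₄ := by
    simp only [b₄, map_add, map_mul, c1, c3, c4, map_ofNat]
  have hx : σ x₀ = x₀ := by
    have e1 := h.h_eq
    have e2 := congrArg σ e1
    simp only [map_add, map_mul, map_pow, map_ofNat, _root_.map_zero, cb2, cb4] at e2
    have dy := h.dy
    have dy' := congrArg σ dy
    simp only [map_add, map_mul, map_ofNat, _root_.map_zero, c1, c3] at dy'
    have f1 := F₀_c₆ dy e1
    have f2 := F₀_c₆ dy' e2
    have hF' : v (F₀ (W'⁄K) (σ x₀) (σ y₀)) < 1 := by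
      have : F₀ (W'⁄K) (σ x₀) (σ y₀) = σ (F₀ (W'⁄K) x₀ y₀) := by
        simp only [F₀, map_add, map_sub, map_mul, map_pow, c1, c2, c3, c4, c6]
      rw [this, hσv]
      exact h.F₀_lt
    have e3 : (σ x₀ - x₀) * (((W'⁄K).b₂ + 12 * x₀) + 6 * (σ x₀ - x₀)) = 0 := by
      linear_combination e2 - e1
    rcases mul_eq_zero.mp e3 with e4 | e4
    · exact sub_eq_zero.mp e4
    · exfalso
      have h1 : v ((W'⁄K).b₂ + 12 * x₀) = 1 := by
        rw [← h.s_eq, map_pow, h.unit, one_pow]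
      have h3 : (W'⁄K).b₂ + 12 * σ x₀ = -((W'⁄K).b₂ + 12 * x₀) := by
        linear_combination 2 * e4
      rw [h3] at f2
      have h4 : 2 * ((W'⁄K).b₂ + 12 * x₀) ^ 3 =
          ((864 : ℕ) : K) * (F₀ (W'⁄K) x₀ y₀ - F₀ (W'⁄K) (σ x₀) (σ y₀)) := by
        push_cast
        linear_combination f2 - f1
      have h5 : v (2 * ((W'⁄K).b₂ + 12 * x₀) ^ 3) = 1 := by
        rw [map_mul, map_pow, h1, h2, one_pow, one_mul]
      rw [h4] at h5
      exact absurd h5 (mul_lt' (natCast_mem_integer v 864) (sub_lt h.F₀_lt hF')).ne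
  have hy : σ y₀ = y₀ := by
    have e1 := h.dy
    have e2 := congrArg σ e1
    simp only [map_add, map_mul, map_ofNat, _root_.map_zero, c1, c3, hx] at e2
    have h2 : (2 : K) ≠ 0 := two_ne_zero
    apply mul_left_cancel₀ h2
    linear_combination e2 - e1
  refine ⟨hx, hy, ?_⟩
  have hroot : ∀ γ γ' : K, γ + γ' = -(W'⁄K).a₁ → γ * γ' = -((W'⁄K).a₂ + 3 * x₀) →
      σ γ = γ ∨ σ γ = γ' := by
    intro γ γ' h1 h2
    have e1 : γ ^ 2 + (W'⁄K).a₁ * γ - ((W'⁄K).a₂ + 3 * x₀) = 0 := by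
      linear_combination γ * h1 - h2
    have e2 := congrArg σ e1
    simp only [map_add, map_sub, map_mul, map_pow, map_ofNat, _root_.map_zero, c1, c2, hx] at e2
    have e3 : (σ γ - γ) * ((σ γ - γ) - (γ' - γ)) = 0 := by
      linear_combination e2 - e1 - (σ γ - γ) * h1
    rcases mul_eq_zero.mp e3 with e4 | e4
    · exact Or.inl (sub_eq_zero.mp e4)
    · right
      linear_combination e4
  have hsum := congrArg σ h.sum
  simp only [map_add, map_neg, c1] at hsum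
  have hs := h.sum
  rcases hroot α β h.sum h.prod with e | e
  · left
    refine ⟨e, ?_⟩
    linear_combination hsum - hs - e
  · right
    refine ⟨e, ?_⟩
    linear_combination hsum - hs - e

lemma nd_smul {σ : K ≃ₐ[S] K} (hσv : ∀ x, v (σ x) = v x) (hx₀ : σ x₀ = x₀) (hy₀ : σ y₀ = y₀)
    {P : (W'⁄K).Point} (hP : Nd v x₀ y₀ (σ • P)) : Nd v x₀ y₀ P := by
  rcases P with _ | ⟨x, y, n⟩
  · have : σ • (Point.zero : (W'⁄K).Point) = 0 := by
      change σ • (0 : (W'⁄K).Point) = 0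
      rw [smul_zero]
    rw [this] at hP
    exact hP
  · have h1 : v (σ x - x₀) < 1 ∧ v (σ y - y₀) < 1 := hP
    refine ⟨?_, ?_⟩
    · rw [← hσv, map_sub, hx₀]; exact h1.1
    · rw [← hσv, map_sub, hy₀]; exact h1.2

/-- branches fixed: `σ P - P ∈ E₀` for `P = 2 Q`. -/
theorem smul_sub_E0_two (h : Crit v (W'⁄K) x₀ y₀ α β) {B : AddSubgroup (W'⁄K).Point}
    (hB : ∀ P, P ∈ B ↔ ¬ Nd v x₀ y₀ P) {σ : K ≃ₐ[S] K}
    (hσv : ∀ x, v (σ x) = v x) (hx₀ : σ x₀ = x₀) (hy₀ : σ y₀ = y₀)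
    (hα : σ α = α) (hβ : σ β = β) (Q : (W'⁄K).Point) :
    σ • (2 • Q) - 2 • Q ∈ B := by
  have key : ∀ P : (W'⁄K).Point,
      (∀ x y n, P = .some x y n → Nd v x₀ y₀ P →
        v ((y - y₀) - α * (x - x₀)) ≠ v ((y - y₀) - β * (x - x₀))) →
      σ • P - P ∈ B := by
    intro P hne
    by_cases hnd : Nd v x₀ y₀ P
    · rw [hB]
      rcases P with _ | ⟨x, y, n⟩
      · exact absurd hnd id
      · exact not_nd_fix h hσv hx₀ hy₀ hα hβ n hnd (hne x y n rfl hnd)
    · exact B.sub_mem ((hB _).mpr fun h1 => hnd (nd_smul hσv hx₀ hy₀ h1)) ((hB _).mpr hnd)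
  by_cases hmid : ∀ x y n, Q = .some x y n → Nd v x₀ y₀ Q →
        v ((y - y₀) - α * (x - x₀)) ≠ v ((y - y₀) - β * (x - x₀))
  · have h1 := key Q hmid
    have h3 : σ • (2 • Q) - 2 • Q = 2 • (σ • Q - Q) := by
      rw [nsmul_sub, smul_comm]
    rw [h3]
    exact B.nsmul_mem h1 2
  · push Not at hmid
    obtain ⟨x, y, n, rfl, hnd, heq⟩ := hmid
    refine key _ ?_
    intro _ _ _ _ hnd2
    exfalso
    rw [two_nsmul] at hnd2
    exact h.not_nd_two n hnd.1 heq hnd2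

/-- branches exchanged: `σ P + P ∈ E₀` for `P = 2 Q`. -/
theorem smul_add_E0_two (h : Crit v (W'⁄K) x₀ y₀ α β) {B : AddSubgroup (W'⁄K).Point}
    (hB : ∀ P, P ∈ B ↔ ¬ Nd v x₀ y₀ P) {σ : K ≃ₐ[S] K}
    (hσv : ∀ x, v (σ x) = v x) (hx₀ : σ x₀ = x₀) (hy₀ : σ y₀ = y₀)
    (hα : σ α = β) (hβ : σ β = α) (Q : (W'⁄K).Point) :
    σ • (2 • Q) + 2 • Q ∈ B := by
  have key : ∀ P : (W'⁄K).Point,
      (∀ x y n, P = .some x y n → Nd v x₀ y₀ P →
        v ((y - y₀) - α * (x - x₀)) ≠ v ((y - y₀) - β * (x - x₀))) →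
      σ • P + P ∈ B := by
    intro P hne
    by_cases hnd : Nd v x₀ y₀ P
    · rw [hB]
      rcases P with _ | ⟨x, y, n⟩
      · exact absurd hnd id
      · exact not_nd_swap h hσv hx₀ hy₀ hα hβ n hnd (hne x y n rfl hnd)
    · exact B.add_mem ((hB _).mpr fun h1 => hnd (nd_smul hσv hx₀ hy₀ h1)) ((hB _).mpr hnd)
  by_cases hmid : ∀ x y n, Q = .some x y n → Nd v x₀ y₀ Q →
        v ((y - y₀) - α * (x - x₀)) ≠ v ((y - y₀) - β * (x - x₀))
  · have h1 := key Q hmid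
    have h3 : σ • (2 • Q) + 2 • Q = 2 • (σ • Q + Q) := by
      rw [nsmul_add, smul_comm]
    rw [h3]
    exact B.nsmul_mem h1 2
  · push Not at hmid
    obtain ⟨x, y, n, rfl, hnd, heq⟩ := hmid
    refine key _ ?_
    intro _ _ _ _ hnd2
    exfalso
    rw [two_nsmul] at hnd2
    exact h.not_nd_two n hnd.1 heq hnd2

end Galois

section Bad

variable (E : WeierstrassCurve ℚ) [E.IsElliptic] {W : WeierstrassCurve ℤ}
  (hWE : W.IsIntegralModelOf E) {l : ℕ} (hl : l.Prime) (hl2 : l ≠ 2)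
  {A : ValuationSubring Qb} (hA : A.LiesOverPrime l)
  (hΔ : (l : ℤ) ∣ W.Δ) (hc : ¬ (l : ℤ) ∣ W.c₄)

include hWE hl hl2 hA hΔ hc

/-- the points with nonsingular reduction at `A ∣ l` and the sign character -/
theorem exists_ker_odd : ∃ (B : AddSubgroup (E⁄Qb).Point) (z : GQ → ℤ),
    (∀ s ∈ A.decompositionSubgroup ℚ, z s = 1 ∨ z s = -1) ∧
    (∀ s ∈ A.inertiaSubgroupIn ℚ, z s = 1) ∧
    (∀ s ∈ A.decompositionSubgroup ℚ, ∀ t ∈ A.decompositionSubgroup ℚ, z (s * t) = z s * z t) ∧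
    (∀ s ∈ A.decompositionSubgroup ℚ, ∀ P ∈ B, s • P ∈ B) ∧
    (∀ s ∈ A.decompositionSubgroup ℚ, ∀ (Q : (E⁄Qb).Point),
      s • (2 • Q) - z s • (2 • Q) ∈ B) ∧
    ∃ P : (E⁄Qb).Point, 2 • P = 0 ∧ P ∉ B := by
  classical
  have hvq : A.valuation ((l : ℕ) : Qb) < 1 := A.mem_nonunits_iff.mp hA
  have h2 : A.valuation (2 : Qb) = 1 := by
    have := val_int_eq_one (v := A.valuation) hl hvq (n := 2) (by
      intro h
      have h1 : l ∣ 2 := by exact_mod_cast h
      exact hl2 ((Nat.prime_dvd_prime_iff_eq hl Nat.prime_two).mp h1))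
    exact_mod_cast this
  have hΔ0 : W.Δ ≠ 0 := Δ_ne_zero E hWE
  obtain ⟨θ, hθ⟩ := exists_iso E hWE
  have hInt := isInt_model (A := A) (L := Qb) W
  have hΔv : A.valuation ((W.map (Int.castRingHom ℚ))⁄Qb).Δ < 1 := by
    rw [Δ_model]; exact val_int_lt_one (q := l) hvq hΔ
  have hcv : A.valuation ((W.map (Int.castRingHom ℚ))⁄Qb).c₄ = 1 := by
    rw [c₄_model]; exact val_int_eq_one hl hvq hc
  have hΔQ : ((W.map (Int.castRingHom ℚ))⁄Qb).Δ ≠ 0 := by
    rw [Δ_model]; exact_mod_cast hΔ0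
  obtain ⟨x₀, y₀, α, β, h⟩ := exists_crit (v := A.valuation) hInt hΔv hcv
  obtain ⟨e, t, b, hN, he⟩ := exists_nodeData h h2 hΔQ
  have hαβ : α ≠ β := by
    rintro rfl
    have := h.unit
    rw [sub_self, _root_.map_zero] at this
    exact zero_ne_one this
  have hB₀ : ∀ P, P ∈ hN.E0 ↔ ¬ Nd A.valuation x₀ y₀ P := mem_E0_iff_nd h hN he
  have hdec : ∀ s ∈ A.decompositionSubgroup ℚ, ∀ x, A.valuation (s x) = A.valuation x :=
    fun s hs x => valuation_decomp_eq A hs x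
  let z : GQ → ℤ := fun s => if s α = α then 1 else -1
  have hz : ∀ s ∈ A.decompositionSubgroup ℚ,
      (s α = α ∧ s β = β ∧ z s = 1) ∨ (s α = β ∧ s β = α ∧ z s = -1) := by
    intro s hs
    obtain ⟨-, -, h3 | h3⟩ := crit_decomp_odd h h2 (hdec s hs)
    · exact Or.inl ⟨h3.1, h3.2, if_pos h3.1⟩
    · refine Or.inr ⟨h3.1, h3.2, if_neg ?_⟩
      rw [h3.1]
      exact hαβ.symm
  have memB : ∀ P, P ∈ hN.E0.map (θ : _ →+ (E⁄Qb).Point) ↔ θ.symm P ∈ hN.E0 := by
    intro P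
    constructor
    · rintro ⟨Q, hQ, rfl⟩
      change θ.symm (θ Q) ∈ hN.E0
      rw [AddEquiv.symm_apply_apply]
      exact hQ
    · intro hP
      exact ⟨θ.symm P, hP, θ.apply_symm_apply P⟩
  refine ⟨hN.E0.map (θ : _ →+ (E⁄Qb).Point), z, ?_, ?_, ?_, ?_, ?_, ?_⟩
  · intro s hs
    rcases hz s hs with h1 | h1
    · exact Or.inl h1.2.2
    · exact Or.inr h1.2.2
  · intro s hs
    have := (h.fixed (R := ℚ) (S := ℚ) (trivMod_of_mem_inertia A hs)).2.2.1
    exact if_pos this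
  · intro s hs t ht
    rcases hz s hs with h1 | h1 <;> rcases hz t ht with h2 | h2 <;>
      rcases hz (s * t) (mul_mem hs ht) with h3 | h3
    · rw [h1.2.2, h2.2.2, h3.2.2]; rfl
    · exfalso
      apply hαβ
      rw [← h3.1, AlgEquiv.mul_apply, h2.1, h1.1]
    · exfalso
      apply hαβ
      have := h3.1
      rw [AlgEquiv.mul_apply, h2.1, h1.2.1] at this
      exact this.symm
    · rw [h1.2.2, h2.2.2, h3.2.2]; rfl
    · exfalso
      apply hαβ
      have := h3.1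
      rw [AlgEquiv.mul_apply, h2.1, h1.1] at this
      exact this.symm
    · rw [h1.2.2, h2.2.2, h3.2.2]; rfl
    · rw [h1.2.2, h2.2.2, h3.2.2]; rfl
    · exfalso
      apply hαβ
      have := h3.1
      rw [AlgEquiv.mul_apply, h2.1, h1.2.1] at this
      exact this
  · rintro s hs _ ⟨P, hP, rfl⟩
    have hcr := crit_decomp_odd h h2 (hdec s hs)
    refine ⟨s • P, (hB₀ _).mpr fun h1 => ?_, (hθ s P).symm⟩
    exact (hB₀ _).mp hP (nd_smul (hdec s hs) hcr.1 hcr.2.1 h1)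
  · intro s hs Q
    obtain ⟨Q', rfl⟩ := θ.surjective Q
    have e : s • (2 • θ Q') - z s • (2 • θ Q') = θ (s • (2 • Q') - z s • (2 • Q')) := by
      rw [map_sub, map_zsmul, ← hθ, map_nsmul]
    rw [e, memB, AddEquiv.symm_apply_apply]
    have hc := crit_decomp_odd h h2 (hdec s hs)
    rcases hz s hs with h1 | h1
    · rw [h1.2.2, one_zsmul]
      exact smul_sub_E0_two h hB₀ (hdec s hs) hc.1 hc.2.1 h1.1 h1.2.1 Q'
    · rw [h1.2.2, neg_one_zsmul, sub_neg_eq_add]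
      exact smul_add_E0_two h hB₀ (hdec s hs) hc.1 hc.2.1 h1.1 h1.2.1 Q'
  · have hns : ((W.map (Int.castRingHom ℚ))⁄Qb).toAffine.Nonsingular e t :=
      (equation_iff_nonsingular_of_Δ_ne_zero hΔQ).mp ((equation_iff ..).mpr hN.eqn)
    refine ⟨θ (.some e t hns), ?_, ?_⟩
    · rw [← map_nsmul, two_nsmul, add_self_of_Y_eq, _root_.map_zero]
      rw [negY]
      linear_combination hN.two_t
    · rw [memB, AddEquiv.symm_apply_apply, hN.mem_E0_iff]
      change ¬ (A.valuation 1 ≤ A.valuation (e - e * 1))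
      rw [mul_one, sub_self, _root_.map_zero, _root_.map_one, not_le]
      exact zero_lt_one

/-- **Local structure at an odd multiplicative prime** of the `2`-adic Tate module. -/
theorem exists_line_odd (hns : NonScalar E 2) :
    ∃ (e : Fin 2 → ℤ_[2]) (φ : (Fin 2 → ℤ_[2]) →ₗ[ℤ_[2]] ℤ_[2]) (z : GQ → ℤ),
      (∃ i, IsUnit (e i)) ∧ Function.Surjective φ ∧
      (∀ x, φ x = 0 ↔ ∃ a : ℤ_[2], x = a • e) ∧
      (∀ s ∈ A.decompositionSubgroup ℚ, z s = 1 ∨ z s = -1) ∧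
      (∀ s ∈ A.inertiaSubgroupIn ℚ, z s = 1) ∧
      (∀ s ∈ A.decompositionSubgroup ℚ, ∀ t ∈ A.decompositionSubgroup ℚ,
        z (s * t) = z s * z t) ∧
      (∀ s ∈ A.decompositionSubgroup ℚ, ∀ x, φ (repE E 2 s x) = (z s : ℤ_[2]) * φ x) ∧
      (∀ s ∈ A.decompositionSubgroup ℚ, repE E 2 s e = ((z s : ℤ_[2]) * cycE 2 s) • e) := by
  obtain ⟨B, z, hz1, hz2, hz3, hB1, hB2, P, hP2, hPB⟩ := exists_ker_odd E hWE hl hl2 hA hΔ hc
  let L : Submodule ℤ_[2] (Fin 2 → ℤ_[2]) :=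
    { carrier := {x | ∀ n, ((tb E 2).pr n x : (E⁄Qb).Point) ∈ B}
      add_mem' := fun {a b} ha hb n => by
        rw [map_add, AddSubgroup.coe_add]
        exact B.add_mem (ha n) (hb n)
      zero_mem' := fun n => by
        rw [_root_.map_zero]
        exact B.zero_mem
      smul_mem' := fun c x hx n => by
        rw [TBasis.pr_smul, AddSubgroup.coe_nsmul]
        exact B.nsmul_mem (hx n) _ }
  have hL2 : ∀ s ∈ A.decompositionSubgroup ℚ, ∀ x, repE E 2 s x - (z s : ℤ_[2]) • x ∈ L := by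
    intro s hs x n
    have h1 := hB2 s hs ((tb E 2).pr (n + 1) x)
    rw [TBasis.p_smul_pr] at h1
    rw [map_sub, AddSubgroup.coe_sub, pr_repE, Int.cast_smul_eq_zsmul, map_zsmul,
      AddSubgroup.coe_zsmul]
    exact h1
  have hsat : ∀ x, (2 : ℤ_[2]) • x ∈ L → x ∈ L := by
    intro x hx n
    have h1 := hx (n + 1)
    have h2 : (tb E 2).pr (n + 1) ((2 : ℤ_[2]) • x) = 2 • (tb E 2).pr (n + 1) x := by
      rw [two_smul, map_add, two_nsmul]
    rw [h2, AddSubgroup.coe_nsmul, TBasis.p_smul_pr] at h1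
    exact h1
  have hbot : L ≠ ⊥ := by
    obtain ⟨s, hs⟩ := Frob.exists_isFrobeniusAt (L := Qb) hl hA
    intro hbot
    have hsD : s ∈ A.decompositionSubgroup ℚ := hs.mem_decompositionSubgroup
    have hcyc : cycE 2 s = (l : ℤ_[2]) := Fermat.Agent.QuadRep.cyc_frobenius (p_mem 2) hl hl2 hA hs
    have h1 : repE E 2 s = (z s : ℤ_[2]) • (1 : Module.End ℤ_[2] (Fin 2 → ℤ_[2])) := by
      refine LinearMap.ext fun x => ?_
      have h2 := hL2 s hsD x
      rw [hbot, Submodule.mem_bot] at h2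
      exact sub_eq_zero.mp h2
    have h3 := det_eq_cyc E 2 hWE hns s
    rw [h1, LinearMap.det_smul, _root_.map_one, mul_one, Module.finrank_fin_fun, hcyc] at h3
    have h4 : ((z s : ℤ_[2])) ^ 2 = 1 := by
      rcases hz1 s hsD with h | h <;> rw [h] <;> norm_num
    rw [h4] at h3
    have h5 : l = 1 := by exact_mod_cast h3.symm
    exact hl.one_lt.ne' h5
  have htop : L ≠ ⊤ := by
    intro htop
    obtain ⟨x, hx⟩ := (tb E 2).pr_surjective 1 ⟨P, (mem_tor 2).mpr (by rw [pow_one]; exact hP2)⟩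
    have h1 : x ∈ L := by rw [htop]; trivial
    have h2 := h1 1
    rw [hx] at h2
    exact hPB h2
  have hL1 : ∀ s ∈ A.decompositionSubgroup ℚ, ∀ x ∈ L, repE E 2 s x ∈ L := by
    intro s hs x hx n
    rw [pr_repE]
    exact hB1 s hs _ (hx n)
  obtain ⟨e, he, hLe⟩ := exists_gen hsat hbot htop
  have hφ : ∀ s ∈ A.decompositionSubgroup ℚ, ∀ x,
      dform e (repE E 2 s x) = (z s : ℤ_[2]) * dform e x := by
    intro s hs x
    have h1 := (hLe _).mp (hL2 s hs x)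
    rw [map_sub, map_smul, smul_eq_mul] at h1
    exact sub_eq_zero.mp h1
  refine ⟨e, dform e, z, he, dform_surjective he, dform_eq_zero_iff he, hz1, hz2, hz3, hφ, ?_⟩
  intro s hs
  have heL : e ∈ L := (hLe e).mpr (dform_self e)
  obtain ⟨a, ha⟩ := (dform_eq_zero_iff he _).mp ((hLe _).mp (hL1 s hs e heL))
  obtain ⟨f, hf⟩ := dform_surjective he 1
  have hdet := det_eq_cyc E 2 hWE hns s
  have h3 := hφ s hs f
  rw [hf, mul_one] at h3
  have h4 : ∀ u : Module.End ℤ_[2] (Fin 2 → ℤ_[2]),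
      LinearMap.det u * (e 0 * f 1 - e 1 * f 0) = (u e) 0 * (u f) 1 - (u e) 1 * (u f) 0 := by
    intro u
    rw [← LinearMap.det_toMatrix', Matrix.det_fin_two]
    have hu : ∀ x : Fin 2 → ℤ_[2], u x = (LinearMap.toMatrix' u).mulVec x := fun x =>
      (LinearMap.toMatrix'_mulVec u x).symm
    rw [hu e, hu f]
    simp only [Matrix.mulVec, dotProduct, Fin.sum_univ_two]
    ring
  have h5 := h4 (repE E 2 s)
  rw [hdet, ← dform_apply, hf, mul_one, ha] at h5
  have h6 : cycE 2 s = a * (z s : ℤ_[2]) := by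
    rw [dform_apply] at h3
    rw [h5]
    simp only [Pi.smul_apply, smul_eq_mul]
    linear_combination a * h3
  have h7 : (z s : ℤ_[2]) * (z s : ℤ_[2]) = 1 := by
    rcases hz1 s hs with h | h <;> rw [h] <;> norm_num
  rw [ha]
  congr 1
  linear_combination (-(z s : ℤ_[2])) * h6 - a * h7

end Bad

section Smooth

variable (E : WeierstrassCurve ℚ) [E.IsElliptic]

/-- smoothness of the matrices of `repE` modulo `2 ^ K` -/
theorem repE_smooth (K : ℕ) : ∃ L : IntermediateField ℚ Qb, FiniteDimensional ℚ L ∧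
    ∀ σ : GQ, (∀ x ∈ L, σ x = x) → ∀ i j, ∃ c : ℤ_[2],
      LinearMap.toMatrix' (repE E 2 σ) i j - (1 : Matrix (Fin 2) (Fin 2) ℤ_[2]) i j =
        2 ^ K * c := by
  have hfin : Finite (tor 2 (E⁄Qb).Point K) := card_tor_of (card_torE E 2) K
  obtain ⟨L, hL, h⟩ := exists_level E (S := (tor 2 (E⁄Qb).Point K : Set (E⁄Qb).Point))
    (Set.toFinite _)
  refine ⟨L, hL, fun σ hσ i j => ?_⟩
  have h1 : (tb E 2).pr K (repE E 2 σ (Pi.single j 1) - Pi.single j 1) = 0 := by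
    apply Subtype.ext
    rw [map_sub, AddSubgroup.coe_sub, pr_repE, h σ hσ _ ((tb E 2).pr K _).2, sub_self]
    rfl
  obtain ⟨w, hw⟩ := ((tb E 2).pr_eq_zero_iff K _).mp h1
  refine ⟨w i, ?_⟩
  have h2 := congrFun hw i
  rw [LinearMap.toMatrix'_apply, Matrix.one_apply]
  simp only [Pi.sub_apply, Pi.smul_apply, smul_eq_mul, Nat.cast_ofNat] at h2
  rw [← h2, Pi.single_apply]

/-- smoothness of `rbE` -/
theorem rbE_smooth : ∃ L : IntermediateField ℚ Qb, FiniteDimensional ℚ L ∧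
    ∀ σ : GQ, (∀ x ∈ L, σ x = x) → rbE E σ = 1 := by
  obtain ⟨L, hL, h⟩ := repE_smooth E 1
  refine ⟨L, hL, fun σ hσ => ?_⟩
  ext i j
  obtain ⟨c, hc⟩ := h σ hσ i j
  rw [rbE_apply, Matrix.map_apply]
  have h1 : LinearMap.toMatrix' (repE E 2 σ) i j =
      (1 : Matrix (Fin 2) (Fin 2) ℤ_[2]) i j + 2 ^ 1 * c := by
    rw [← hc]; ring
  have h2 : PadicInt.toZMod (p := 2) (2 : ℤ_[2]) = 0 := by
    rw [map_ofNat]; rfl
  rw [h1, map_add, map_mul, pow_one, h2, zero_mul, add_zero, Matrix.one_apply, Matrix.one_apply]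
  split_ifs
  · exact _root_.map_one _
  · exact _root_.map_zero _

theorem rbE_det (s : GQ) : (rbE E s).det = 1 := by
  have h := rbE_det_ne E s
  have h1 : ∀ a : ZMod 2, a ≠ 0 → a = 1 := by decide
  exact h1 _ h

theorem toZMod_trE (s : GQ) : PadicInt.toZMod (trE E 2 s) = (rbE E s).trace := by
  rw [trE, LinearMap.trace_eq_matrix_trace ℤ_[2] (Pi.basisFun ℤ_[2] (Fin 2)),
    LinearMap.toMatrix_eq_toMatrix', rbE_apply]
  simp only [Matrix.trace, Matrix.diag, map_sum, Matrix.map_apply]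

end Smooth

end Fermat.Agent.ZEC
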