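import Fermat.Agent.ZEC.Main
import Fermat.Agent.ZEC.Mat

/-!
# The residual representation at `2` of an elliptic curve
-/

set_option autoImplicit false

namespace Fermat.Agent.ZEC

open WeierstrassCurve WeierstrassCurve.Affine WeierstrassCurve.Affine.Point
open Fermat.Agent.EC Fermat.Agent.ERep Fermat.Agent.Tate Fermat.Agent.FrobE

local notation "Qb" => AlgebraicClosure ℚ
local notation "GQ" => AlgebraicClosure ℚ ≃ₐ[ℚ] AlgebraicClosure ℚ

section Def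

variable (E : WeierstrassCurve ℚ) [E.IsElliptic]

/-- The residual representation at `2`: the reduction of the matrix of `repE E 2`. -/
noncomputable def rbE : GQ →* Matrix (Fin 2) (Fin 2) (ZMod 2) :=
  ((PadicInt.toZMod (p := 2)).mapMatrix (m := Fin 2)).toMonoidHom.comp
    ((LinearMap.toMatrixAlgEquiv' (R := ℤ_[2]) (n := Fin 2)).toRingEquiv.toRingHom.toMonoidHom.comp
      (repE E 2))

theorem rbE_apply (s : GQ) : rbE E s = (LinearMap.toMatrix' (repE E 2 s)).map (PadicInt.toZMod) :=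
  rfl

theorem rbE_det_ne (s : GQ) : (rbE E s).det ≠ 0 := by
  have h : rbE E s * rbE E s⁻¹ = 1 := by rw [← map_mul, mul_inv_cancel, _root_.map_one]
  intro h0
  have h1 := congrArg Matrix.det h
  rw [Matrix.det_mul, h0, zero_mul, Matrix.det_one] at h1
  exact zero_ne_one h1

/-- reduction of vectors -/
noncomputable def redv (x : Fin 2 → ℤ_[2]) : Fin 2 → ZMod 2 := fun i => PadicInt.toZMod (x i)

theorem redv_rep (s : GQ) (x : Fin 2 → ℤ_[2]) :
    redv (repE E 2 s x) = (rbE E s).mulVec (redv x) := by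
  funext i
  have h1 : repE E 2 s x = (LinearMap.toMatrix' (repE E 2 s)).mulVec x :=
    (LinearMap.toMatrix'_mulVec _ x).symm
  rw [redv, h1, rbE_apply]
  simp only [Matrix.mulVec, dotProduct, map_sum, map_mul, Matrix.map_apply, redv]

theorem redv_surjective (t : Fin 2 → ZMod 2) : ∃ x, redv x = t := by
  choose x hx using fun i => ZMod.ringHom_surjective (PadicInt.toZMod (p := 2)) (t i)
  exact ⟨x, funext hx⟩

theorem redv_eq_zero_iff (x : Fin 2 → ℤ_[2]) :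
    redv x = 0 ↔ ∃ w : Fin 2 → ℤ_[2], x = (2 : ℤ_[2]) • w := by
  constructor
  · intro h
    have h1 : ∀ i, ∃ w, x i = 2 * w := by
      intro i
      have h2 : x i ∈ RingHom.ker (PadicInt.toZMod (p := 2)) := congrFun h i
      rw [PadicInt.ker_toZMod, PadicInt.maximalIdeal_eq_span_p, Ideal.mem_span_singleton] at h2
      obtain ⟨w, hw⟩ := h2
      exact ⟨w, by exact_mod_cast hw⟩
    choose w hw using h1
    exact ⟨w, funext hw⟩
  · rintro ⟨w, rfl⟩
    funext i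
    show PadicInt.toZMod (2 * w i) = 0
    rw [map_mul]
    have : PadicInt.toZMod (p := 2) (2 : ℤ_[2]) = 0 := by
      rw [map_ofNat]; rfl
    rw [this, zero_mul]

theorem pr_eq_iff (x y : Fin 2 → ℤ_[2]) :
    ((tb E 2).pr 1 x : (E⁄Qb).Point) = (tb E 2).pr 1 y ↔ redv x = redv y := by
  have h1 : redv x = redv y ↔ redv (x - y) = 0 := by
    constructor
    · intro h
      funext i
      show PadicInt.toZMod (x i - y i) = 0
      rw [map_sub, sub_eq_zero]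
      exact congrFun h i
    · intro h
      funext i
      have := congrFun h i
      change PadicInt.toZMod (x i - y i) = 0 at this
      rw [map_sub, sub_eq_zero] at this
      exact this
  rw [h1, redv_eq_zero_iff, ← sub_eq_zero, ← AddSubgroup.coe_sub, ← map_sub,
    ZeroMemClass.coe_eq_zero, TBasis.pr_eq_zero_iff]
  simp only [pow_one, Nat.cast_ofNat]

/-- The `2`-torsion points. -/
theorem exists_pt : ∃ pt : (Fin 2 → ZMod 2) → (E⁄Qb).Point, Function.Injective pt ∧ pt 0 = 0 ∧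
    (∀ t, 2 • pt t = 0) ∧ (∀ P, 2 • P = 0 → ∃ t, pt t = P) ∧
    (∀ (s : GQ) t, s • pt t = pt ((rbE E s).mulVec t)) := by
  choose l hl using redv_surjective
  refine ⟨fun t => (tb E 2).pr 1 (l t), ?_, ?_, ?_, ?_, ?_⟩
  · intro a b hab
    have h := (pr_eq_iff E _ _).mp hab
    rw [hl, hl] at h
    exact h
  · have h : ((tb E 2).pr 1 (l 0) : (E⁄Qb).Point) = (tb E 2).pr 1 0 := by
      rw [pr_eq_iff, hl]
      funext i
      show (0 : ZMod 2) = PadicInt.toZMod 0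
      rw [_root_.map_zero]
    change ((tb E 2).pr 1 (l 0) : (E⁄Qb).Point) = 0
    rw [h, _root_.map_zero]
    rfl
  · intro t
    have h := (mem_tor 2).mp ((tb E 2).pr 1 (l t)).2
    rwa [pow_one] at h
  · intro P hP
    obtain ⟨x, hx⟩ := (tb E 2).pr_surjective 1 ⟨P, (mem_tor 2).mpr (by rw [pow_one]; exact hP)⟩
    refine ⟨redv x, ?_⟩
    have h : ((tb E 2).pr 1 (l (redv x)) : (E⁄Qb).Point) = (tb E 2).pr 1 x := by
      rw [pr_eq_iff, hl]
    change ((tb E 2).pr 1 (l (redv x)) : (E⁄Qb).Point) = P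
    rw [h, hx]
  · intro s t
    change s • ((tb E 2).pr 1 (l t) : (E⁄Qb).Point) = (tb E 2).pr 1 (l ((rbE E s).mulVec t))
    rw [← pr_repE, pr_eq_iff, redv_rep, hl, hl]

/-- The representation is not scalar if `rbE s ≠ 1` for some `s`. -/
theorem nonScalar_of_rbE {s : GQ} (h : rbE E s ≠ 1) : NonScalar E 2 := by
  refine ⟨s, ?_⟩
  rintro ⟨c, hc⟩
  have hm : rbE E s = (PadicInt.toZMod c : ZMod 2) • (1 : Matrix (Fin 2) (Fin 2) (ZMod 2)) := by
    rw [rbE_apply, hc]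
    ext i j
    simp only [map_smul, LinearMap.toMatrix'_one, Matrix.map_apply, Matrix.smul_apply, smul_eq_mul,
      map_mul]
    by_cases hij : i = j
    · subst hij
      rw [Matrix.one_apply_eq, Matrix.one_apply_eq, _root_.map_one]
    · rw [Matrix.one_apply_ne hij, Matrix.one_apply_ne hij, _root_.map_zero]
  have hd := rbE_det_ne E s
  have hcases : ∀ a : ZMod 2, a = 0 ∨ a = 1 := by decide
  rcases hcases (PadicInt.toZMod c) with h0 | h1
  · rw [hm, h0, zero_smul, Matrix.det_zero] at hd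
    exact hd rfl
  · rw [hm, h1, one_smul] at h
    exact h rfl

end Def

section Roots

/-- `x`-coordinate -/
noncomputable def xc {E : WeierstrassCurve ℚ} : (E⁄Qb).Point → Qb
  | .zero => 0
  | .some x _ _ => x

variable {E : WeierstrassCurve ℚ}

theorem xc_smul (s : GQ) (P : (E⁄Qb).Point) : xc (s • P) = s (xc P) := by
  rcases P with _ | ⟨x, y, n⟩
  · exact (_root_.map_zero s).symm
  · rfl

theorem xc_spec {P : (E⁄Qb).Point} (h0 : P ≠ 0) (h : 2 • P = 0) :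
    4 * xc P ^ 3 + (E⁄Qb).b₂ * xc P ^ 2 + 2 * (E⁄Qb).b₄ * xc P + (E⁄Qb).b₆ = 0 := by
  rcases P with _ | ⟨x, y, n⟩
  · exact absurd rfl h0
  · rw [two_nsmul] at h
    have hy : y = (E⁄Qb).toAffine.negY x y := by
      by_contra hcon
      rw [add_self_of_Y_ne hcon] at h
      exact some_ne_zero _ h
    have e := ((E⁄Qb).toAffine.equation_iff x y).mp n.1
    have hy2 : 2 * y + (E⁄Qb).a₁ * x + (E⁄Qb).a₃ = 0 := by
      rw [negY] at hy
      linear_combination hy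
    change 4 * x ^ 3 + (E⁄Qb).b₂ * x ^ 2 + 2 * (E⁄Qb).b₄ * x + (E⁄Qb).b₆ = 0
    rw [b₂, b₄, b₆]
    linear_combination (2 * y + (E⁄Qb).a₁ * x + (E⁄Qb).a₃) * hy2 - 4 * e

theorem xc_inj {P Q : (E⁄Qb).Point} (hP0 : P ≠ 0) (hP : 2 • P = 0) (hQ0 : Q ≠ 0) (hQ : 2 • Q = 0)
    (h : xc P = xc Q) : P = Q := by
  have key : ∀ {x y : Qb} (n : (E⁄Qb).toAffine.Nonsingular x y),
      2 • (.some x y n : (E⁄Qb).Point) = 0 → 2 * y + (E⁄Qb).a₁ * x + (E⁄Qb).a₃ = 0 := by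
    intro x y n h
    rw [two_nsmul] at h
    have hy : y = (E⁄Qb).toAffine.negY x y := by
      by_contra hcon
      rw [add_self_of_Y_ne hcon] at h
      exact some_ne_zero _ h
    rw [negY] at hy
    linear_combination hy
  rcases P with _ | ⟨x, y, n⟩
  · exact absurd rfl hP0
  rcases Q with _ | ⟨x', y', n'⟩
  · exact absurd rfl hQ0
  have hx : x = x' := h
  subst hx
  have h1 := key n hP
  have h2 := key n' hQ
  have h3 : y = y' := by
    have h4 : (2 : Qb) ≠ 0 := two_ne_zero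
    apply mul_left_cancel₀ h4
    linear_combination h1 - h2
  subst h3
  rfl

variable (E) [E.IsElliptic]

/-- The roots of the cubic and their permutation. -/
theorem exists_e : ∃ e : (Fin 2 → ZMod 2) → Qb,
    (∀ t t', t ≠ 0 → t' ≠ 0 → e t = e t' → t = t') ∧
    (∀ t, t ≠ 0 → 4 * e t ^ 3 + (E⁄Qb).b₂ * e t ^ 2 + 2 * (E⁄Qb).b₄ * e t + (E⁄Qb).b₆ = 0) ∧
    (∀ (s : GQ) t, s (e t) = e ((rbE E s).mulVec t)) := by
  obtain ⟨pt, hinj, h0, h2, -, hs⟩ := exists_pt E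
  have hne : ∀ t, t ≠ 0 → pt t ≠ 0 := fun t ht h => ht (hinj (h.trans h0.symm))
  refine ⟨fun t => xc (pt t), ?_, ?_, ?_⟩
  · intro t t' ht ht' h
    exact hinj (xc_inj (hne t ht) (h2 t) (hne t' ht') (h2 t') h)
  · intro t ht
    exact xc_spec (hne t ht) (h2 t)
  · intro s t
    change s (xc (pt t)) = xc (pt ((rbE E s).mulVec t))
    rw [← hs, xc_smul]

theorem t₁_ne : t₁ ≠ 0 := by decide
theorem t₂_ne : t₂ ≠ 0 := by decide
theorem t₃_ne : t₃ ≠ 0 := by decide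

/-- The square root of the discriminant and the sign. -/
theorem exists_sqrt : ∃ d : Qb, d ^ 2 = (E⁄Qb).Δ ∧
    ∀ s : GQ, ((rbE E s) ^ 3 = 1 ∧ s d = d) ∨
      ((rbE E s) ^ 3 ≠ 1 ∧ (rbE E s) ^ 2 = 1 ∧ s d = -d) := by
  obtain ⟨e, hinj, hroot, hs⟩ := exists_e E
  have h12 : e t₁ - e t₂ ≠ 0 := fun h =>
    absurd (hinj _ _ t₁_ne t₂_ne (sub_eq_zero.mp h)) (by decide)
  have h13 : e t₁ - e t₃ ≠ 0 := fun h =>
    absurd (hinj _ _ t₁_ne t₃_ne (sub_eq_zero.mp h)) (by decide)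
  have h23 : e t₂ - e t₃ ≠ 0 := fun h =>
    absurd (hinj _ _ t₂_ne t₃_ne (sub_eq_zero.mp h)) (by decide)
  have r1 := hroot t₁ t₁_ne
  have r2 := hroot t₂ t₂_ne
  have r3 := hroot t₃ t₃_ne
  have k12 : 4 * (e t₁ ^ 2 + e t₁ * e t₂ + e t₂ ^ 2) + (E⁄Qb).b₂ * (e t₁ + e t₂) +
      2 * (E⁄Qb).b₄ = 0 := by
    apply mul_left_cancel₀ h12
    linear_combination r1 - r2
  have k13 : 4 * (e t₁ ^ 2 + e t₁ * e t₃ + e t₃ ^ 2) + (E⁄Qb).b₂ * (e t₁ + e t₃) +
      2 * (E⁄Qb).b₄ = 0 := by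
    apply mul_left_cancel₀ h13
    linear_combination r1 - r3
  have s1 : (E⁄Qb).b₂ = -4 * (e t₁ + e t₂ + e t₃) := by
    have : 4 * (e t₁ + e t₂ + e t₃) + (E⁄Qb).b₂ = 0 := by
      apply mul_left_cancel₀ h23
      linear_combination k12 - k13
    linear_combination this
  have s2 : (E⁄Qb).b₄ = 2 * (e t₁ * e t₂ + e t₁ * e t₃ + e t₂ * e t₃) := by
    have h2 : (2 : Qb) ≠ 0 := two_ne_zero
    apply mul_left_cancel₀ h2
    linear_combination k12 - (e t₁ + e t₂) * s1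
  have s3 : (E⁄Qb).b₆ = -4 * (e t₁ * e t₂ * e t₃) := by
    linear_combination r1 - e t₁ ^ 2 * s1 - 2 * e t₁ * s2
  have s8 : 4 * (E⁄Qb).b₈ = (E⁄Qb).b₂ * (E⁄Qb).b₆ - (E⁄Qb).b₄ ^ 2 := (E⁄Qb).b_relation
  refine ⟨4 * ((e t₁ - e t₂) * (e t₁ - e t₃) * (e t₂ - e t₃)), ?_, ?_⟩
  · have h4 : (4 : Qb) ≠ 0 := by norm_num
    apply mul_left_cancel₀ h4
    have hD : 4 * (E⁄Qb).Δ = -(E⁄Qb).b₂ ^ 2 * ((E⁄Qb).b₂ * (E⁄Qb).b₆ - (E⁄Qb).b₄ ^ 2) -
        32 * (E⁄Qb).b₄ ^ 3 - 108 * (E⁄Qb).b₆ ^ 2 + 36 * (E⁄Qb).b₂ * (E⁄Qb).b₄ * (E⁄Qb).b₆ := by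
      rw [← s8, WeierstrassCurve.Δ]; ring
    rw [hD, s1, s2, s3]
    ring
  · intro s
    have e1 : s (4 * ((e t₁ - e t₂) * (e t₁ - e t₃) * (e t₂ - e t₃))) =
        4 * ((e ((rbE E s).mulVec t₁) - e ((rbE E s).mulVec t₂)) *
          (e ((rbE E s).mulVec t₁) - e ((rbE E s).mulVec t₃)) *
          (e ((rbE E s).mulVec t₂) - e ((rbE E s).mulVec t₃))) := by
      rw [map_mul, map_mul, map_mul, map_sub, map_sub, map_sub, hs, hs, hs, map_ofNat]
    rcases six (rbE E s) (rbE_det_ne E s) with ⟨h3, h⟩ | ⟨h3, h2, h⟩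
    · left
      refine ⟨h3, ?_⟩
      rw [e1]
      rcases h with ⟨a, b, c⟩ | ⟨a, b, c⟩ | ⟨a, b, c⟩ <;> rw [a, b, c] <;> ring
    · right
      refine ⟨h3, h2, ?_⟩
      rw [e1]
      rcases h with ⟨a, b, c⟩ | ⟨a, b, c⟩ | ⟨a, b, c⟩ <;> rw [a, b, c] <;> ring

end Roots

end Fermat.Agent.ZEC
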